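/-
LSc / Inst / CtxC  (helper4)

**The modular nodal datum with an ARBITRARY chart constant `c₀ : A`** (project LSc = route FN for
S35: the chart constant must be fixed by the SQUARE OF A FROBENIUS LIFT, not by inertia, so the
`ε`-chosen constant `Unit.c0` of `LSb/Unit/Instance.lean` is not good enough).

`modDatumC hA D1 D2 c₀ := chartDatum D1 D2 jF c₀ (modS D1) (modX₁ hA D1) (modX₂ D1)` and
`modNodalCtxC` : `NodalCtx` for it, provided the residue of `c₀` is not a value of `j̄ ^ q` at a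
node (`GoodConst`).  Same proofs as `LSb/Unit/{Instance, Ctx}.lean`.
-/
import Fermat.Agent.LSb.Unit.Ctx

set_option autoImplicit false
set_option linter.unusedSectionVars false
set_option linter.unusedVariables false

noncomputable section

namespace Fermat.Agent.LSc.Inst

open AlgebraicCurve ModularCurve HahnSeries Fermat.Agent.S18lib Fermat.Agent.ProgramR
open Fermat.Agent.LSb Fermat.Agent.LSb.Unit

local notation "Qb" => AlgebraicClosure ℚ

variable {M q : ℕ} [NeZero M] [NeZero q] [hq : Fact q.Prime]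
variable {A : ValuationSubring (AlgebraicClosure ℚ)}

local notation "kA" => IsLocalRing.ResidueField A

/-- the residue of `c₀` is not a value of `Vq j̄ = j̄ ^ q` at a node -/
def GoodConst (hA : A.LiesOverPrime q) (D1 : GaussDatum A (FBar (M * q)) (FRes A M)) (c₀ : A) :
    Prop :=
  ∀ x' ∈ modNodes D1, ¬ LSb.HasValueAt x' (VqR hA (Gink.jK A M)) (IsLocalRing.residue A c₀)

section WithDivisors

variable [HasPrincipalDivisors (AlgebraicClosure ℚ) (FBar (M * q))]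
variable [HasPrincipalDivisors (IsLocalRing.ResidueField A) (FRes A M)]

/-- **the modular nodal datum with chart constant `c₀`** -/
def modDatumC (hA : A.LiesOverPrime q) (D1 D2 : GaussDatum A (FBar (M * q)) (FRes A M))
    (c₀ : A) : NodalDatum A (FBar (M * q)) (FRes A M) (FRes A M) :=
  chartDatum D1 D2 (Gin0.jF (M * q)) c₀ (modS D1) (modX₁ hA D1) (modX₂ D1)

variable (hqM : ¬ q ∣ M) (hA : A.LiesOverPrime q)
variable {D1 D2 : GaussDatum A (FBar (M * q)) (FRes A M)}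
variable (h1 : Old.IsGaussOne D1) (h2 : Old.IsGaussTwo D1 D2 (wqR M q hqM))
variable {c₀ : A} (hc₀ : GoodConst hA D1 c₀)

include hqM h1 h2 hc₀ in
theorem modX₂_not_memC (c : Fin (modS D1)) :
    modX₂ D1 c ∉ (polesOf (K := kA) (D2.redF (Gin0.jF (M * q)))).support ∧
      modX₂ D1 c ∉ (zerosOf (K := kA) (D2.redF (Gin0.jF (M * q)) -
        algebraMap kA (FRes A M) (IsLocalRing.residue A c₀))).support := by
  have hx := modX₂_mem (D1 := D1) c
  rw [redF_jF₂ hqM hA h1 h2]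
  refine ⟨not_mem_support_polesOf ?_, not_mem_support_zerosOf (hc₀ _ hx)⟩
  show VqR hA (Gink.jK A M) ∈ _
  rw [VqR_jK]
  exact (modX₂ D1 c).toValuationSubring.pow_mem hx.1 q

include hqM h1 hc₀ in
theorem modX₁_not_memC (c : Fin (modS D1)) :
    modX₁ hA D1 c ∉ (polesOf (K := kA) (D1.redF (Gin0.jF (M * q)))).support ∧
      modX₁ hA D1 c ∉ (zerosOf (K := kA) (D1.redF (Gin0.jF (M * q)) -
        algebraMap kA (FRes A M) (IsLocalRing.residue A c₀))).support := by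
  have hx := modX₂_mem (D1 := D1) c
  rw [redF_jF₁ hqM hA h1]
  refine ⟨not_mem_support_polesOf ?_, not_mem_support_zerosOf ?_⟩
  · show VqR hA (Gink.jK A M) ∈ (modX₂ D1 c).toValuationSubring
    rw [VqR_jK]
    exact (modX₂ D1 c).toValuationSubring.pow_mem hx.1 q
  · rw [modX₁, adicValuation_frobPlace_lt_one_iff, map_sub, VqR_algebraMap]
    exact hc₀ _ hx

include hqM h1 h2 hc₀ in
/-- **(GLUE)** for the modular datum with chart constant `c₀` -/
theorem mod_glueC {n : ℕ} {θ : Fin n → FBar (M * q)}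
    (hfr : Frame.IsFrameFamilyS D1 D2 (Gin0.jF (M * q)) θ)
    (hdeg : ∀ Q : Place kA (FRes A M), Q.deg = 1)
    (a b : ℕ) (f : FBar (M * q))
    (hf : f ∈ riemannRochSpace ((modDatumC hA D1 D2 c₀).chartDiv a b))
    (hf1 : f ∈ D1.O) (hf2 : f ∈ D2.O) (c : Fin (modS D1)) :
    ∃ α : kA, LSb.HasValueAt (modX₁ hA D1 c) (D1.redF f) α ∧
      LSb.HasValueAt (modX₂ D1 c) (D2.redF f) α := by
  have hx := modX₂_mem (D1 := D1) c
  have hJ1 := redF_jF₁ hqM hA h1
  have hJ2 := redF_jF₂ hqM hA h1 h2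
  have hVJ : VqR hA (Gink.jK A M) ∈ regAway kA (Gink.jK A M) := by
    intro Q hQ
    rw [VqR_jK]
    exact Q.toValuationSubring.pow_mem hQ q
  have hchart1 : ∀ f ∈ regAway Qb (Gin0.jF (M * q)), f ∈ D1.O → f ∈ D2.O →
      D1.redF f ∈ regAway kA (Gink.jK A M) := by
    intro f hf hf1 hf2
    have := (red_mem_regAway hfr hf hf1 hf2).1
    rwa [hJ1] at this
  have hchart2 : ∀ f ∈ regAway Qb (Gin0.jF (M * q)), f ∈ D1.O → f ∈ D2.O →
      D2.redF f ∈ regAway kA (Gink.jK A M) := by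
    intro f hf hf1 hf2 Q hQ
    have := (red_mem_regAway hfr hf hf1 hf2).2
    rw [hJ2] at this
    exact this Q (hVJ Q hQ)
  have hlift : ∀ z : FRes A M, z ∈ regAway kA (Gink.jK A M) →
      ∃ f ∈ regAway Qb (Gin0.jF (M * q)), f ∈ D1.O ∧ f ∈ D2.O ∧ D1.redF f = z ∧
        D2.redF f = VqR hA z := fun z hz => Old.exists_lift hqM hA h1 h2 z hz
  -- the second chart function
  set w : FBar (M * q) := Gin0.jF (M * q) - algebraMap Qb (FBar (M * q)) ((c₀ : A) : Qb)
    with hw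
  have hw0 : w ≠ 0 := by
    intro h
    apply Gin0.transcendental_jF (M * q)
    rw [sub_eq_zero.1 h]
    exact isAlgebraic_algebraMap _
  have hwreg : ∀ Q : Place Qb (FBar (M * q)), Gin0.jF (M * q) ∈ Q.toValuationSubring →
      w ∈ Q.toValuationSubring :=
    fun Q hQ => sub_mem hQ (Q.algebraMap_mem' _)
  have hc1 : algebraMap Qb (FBar (M * q)) ((c₀ : A) : Qb) ∈ D1.O :=
    (D1.algebraMap_mem_iff _).2 c₀.2
  have hc2 : algebraMap Qb (FBar (M * q)) ((c₀ : A) : Qb) ∈ D2.O :=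
    (D2.algebraMap_mem_iff _).2 c₀.2
  have hj1 := jF_mem₁ hqM hA h1
  have hj2 := jF_mem₂ hqM hA h1 h2
  have hw1 : w ∈ D1.O := sub_mem hj1 hc1
  have hw2 : w ∈ D2.O := sub_mem hj2 hc2
  have hwred2 : D2.redF w = VqR hA (Gink.jK A M) -
      algebraMap kA (FRes A M) (IsLocalRing.residue A c₀) := by
    rw [hw, D2.redF_sub hj2 hc2, hJ2, D2.redF_algebraMap]
    rfl
  have hnv := hc₀ _ hx
  have hwred : D2.redF w ≠ 0 := by
    rw [hwred2]
    intro h0
    apply hnv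
    rw [LSb.HasValueAt, h0, map_zero]
    exact zero_lt_one
  have hx'w : (D2.redF w)⁻¹ ∈ (modX₂ D1 c).toValuationSubring := by
    rw [hwred2]
    by_contra hcon
    apply hnv
    rw [LSb.HasValueAt, Unit.adicValuation_lt_one_iff]
    exact Or.inr hcon
  have hY2 : D2.redF (Yw M q hqM) ≠ 0 := by
    rw [redF₂_Yw hqM h2]; exact H₂_ne_zero h1
  have hx'H : (modX₂ D1 c).adicValuation (D2.redF (Yw M q hqM)) < 1 := by
    rw [redF₂_Yw hqM h2]; exact hx.2
  exact glue_chart D1 D2 (rankOne_of_liesOverPrime A hA) (Gin0.jF (M * q)) (Gink.jK A M) (VqR hA)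
    (VqR_algebraMap hA) hdeg hchart1 hchart2 hVJ hlift (Yw_mem_regAway hqM) (Yw_inv_mem_regAway hqM)
    hY2 (modX₂ D1 c) hx.1 hx'H (comap_ne_top_of_pow (VqR hA) hq.out.pos (VqR_pow hA) _)
    hw0 hwreg hw1 hw2 hwred hx'w a b hf hf1 hf2

end WithDivisors

variable [HasPrincipalDivisors (AlgebraicClosure ℚ) (FBar M)]
variable [HasPrincipalDivisors (AlgebraicClosure ℚ) (FBar (M * q))]
variable [HasPrincipalDivisors (IsLocalRing.ResidueField A) (FRes A M)]

/-- **the modular `NodalCtx` with chart constant `c₀`** -/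
theorem modNodalCtxC (hqM : ¬ q ∣ M) (hA : A.LiesOverPrime q)
    {D1 D2 : GaussDatum A (FBar (M * q)) (FRes A M)}
    (h1 : Old.IsGaussOne D1) (h2 : Old.IsGaussTwo D1 D2 (wqR M q hqM))
    {c₀ : A} (hc₀ : GoodConst hA D1 c₀)
    {g gM : ℕ} (hF : IsCurveOfGenus Qb (FBar (M * q)) g) (hFk : IsCurveOfGenus kA (FRes A M) gM)
    (hcount : g + 1 ≤ gM + gM + modS D1) :
    NodalCtx (modDatumC hA D1 D2 c₀) g gM gM := by
  have hwq : ∀ x, wqR M q hqM (wqR M q hqM x) = x := fun x => Val.wq_wq M q hq.out hqM x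
  obtain ⟨θ, hfr⟩ := Frame.modular_exists_isFrameFamilyS hqM hA h1 h2 hwq
  exact
    { hF := hF
      hF₁ := hFk
      hF₂ := hFk
      rankOne := rankOne_of_liesOverPrime A hA
      hD := hfr.hasOrthonormalBasesS
      P₁_nonneg := Old.chartDatum_P₁_nonneg _ _ _ _ _ _ _
      P₂_nonneg := Old.chartDatum_P₂_nonneg _ _ _ _ _ _ _
      P_disjoint := Old.chartDatum_P_disjoint _ _ _ _ _ _ _
      Q₁₁_nonneg := Old.chartDatum_Q₁₁_nonneg _ _ _ _ _ _ _
      Q₂₁_nonneg := Old.chartDatum_Q₂₁_nonneg _ _ _ _ _ _ _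
      Q₁₂_nonneg := Old.chartDatum_Q₁₂_nonneg _ _ _ _ _ _ _
      Q₂₂_nonneg := Old.chartDatum_Q₂₂_nonneg _ _ _ _ _ _ _
      Q₁_disjoint := Old.chartDatum_Q₁_disjoint _ _ _ _ _ _ _
      Q₂_disjoint := Old.chartDatum_Q₂_disjoint _ _ _ _ _ _ _
      deg_Q₁₁_pos := Old.modular_deg_Q₁₁_pos _ _ _ _ hqM hA h1
      deg_Q₂₁_pos := Old.modular_deg_Q₂₁_pos _ _ _ _ hqM hA h1
      deg_Q₁₂_pos := Old.modular_deg_Q₁₂_pos _ _ _ _ hqM hA h1 h2
      deg_Q₂₂_pos := Old.modular_deg_Q₂₂_pos _ _ _ _ hqM hA h1 h2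
      deg_Q₁_le := Old.modular_deg_Q₁_le _ _ _ _ hqM hA h1 h2
      deg_Q₂_le := Old.modular_deg_Q₂_le _ _ _ _ hqM hA h1 h2
      x₁_injective := modX₁_injective hA
      x₂_injective := modX₂_injective
      x₁_not_mem := modX₁_not_memC hqM hA h1 hc₀
      x₂_not_mem := modX₂_not_memC hqM hA h1 h2 hc₀
      chart₁ := fun a b f hf hf1 hf2 => (Old.modular_chart _ _ _ _ hfr a b f hf hf1 hf2).1
      chart₂ := fun a b f hf hf1 hf2 => (Old.modular_chart _ _ _ _ hfr a b f hf hf1 hf2).2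
      glue := fun a b f hf hf1 hf2 c =>
        mod_glueC hqM hA h1 h2 hc₀ hfr hFk.deg_eq_one a b f hf hf1 hf2 c
      count := hcount
      s_pos := modS_pos hA h1 hFk }

/-- the same with `D2 := w_q^* D1` -/
theorem modNodalCtxC' (hqM : ¬ q ∣ M) (hA : A.LiesOverPrime q)
    {D1 : GaussDatum A (FBar (M * q)) (FRes A M)} (h1 : Old.IsGaussOne D1)
    {c₀ : A} (hc₀ : GoodConst hA D1 c₀)
    {g gM : ℕ} (hF : IsCurveOfGenus Qb (FBar (M * q)) g) (hFk : IsCurveOfGenus kA (FRes A M) gM)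
    (hcount : g + 1 ≤ gM + gM + modS D1) :
    NodalCtx (modDatumC hA D1 (modD2 hqM D1) c₀) g gM gM :=
  modNodalCtxC hqM hA h1 (isGaussTwo_modD2 hqM D1) hc₀ hF hFk hcount

end Fermat.Agent.LSc.Inst
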