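/-
LSc / Inst / Decomp  (helper4)

**The decomposition group acts on the two Gauss data of the modular nodal datum**, compatibly with
the coefficientwise action of the residue automorphism `σ̄` on `FRes A M` (`S37lib.C0.resAutD`):
for `g ∈ D_A` with underlying `σ`,

  `σ x ∈ Oᵢ ↔ x ∈ Oᵢ`,   `redᵢ (σ x) = σ̄ (redᵢ x)`     (i = 1, 2).

This is helper2's `LSb/Kum/Inertial.lean` with `σ̄ ≠ id` (input I1 of route FN for S35).
-/
import Fermat.Agent.LSb.Kum.Inertial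
import Fermat.Agent.S37lib.C0.Equivariance

set_option autoImplicit false
set_option linter.unusedSectionVars false
set_option linter.unusedVariables false

noncomputable section

namespace Fermat.Agent.LSc.Inst

open AlgebraicCurve ModularCurve HahnSeries Fermat.Agent.S18lib Fermat.Agent.S37lib
open Fermat.Agent.LSb

local notation "Qb" => AlgebraicClosure ℚ

/-! ### abstract: semilinear version of `Kum.mem_and_redF_of_rep` -/

section Abstract

variable {L : Type*} [Field L] {B : ValuationSubring L}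
variable {F : Type*} [Field F] [Algebra L F]
variable {Fk : Type*} [Field Fk] [Algebra (IsLocalRing.ResidueField B) Fk]

theorem mem_and_redF_of_rep_semi (D : GaussDatum B F Fk) (g : F →+* F) (t : Fk →+* Fk) (S : Set F)
    (hS : ∀ a ∈ S, a ∈ D.O ∧ g a ∈ D.O ∧ D.redF (g a) = t (D.redF a))
    (hrep : ∀ x ∈ D.O, ∃ a ∈ S, ∃ b ∈ S, D.redF b ≠ 0 ∧ x * b = a)
    {x : F} (hx : x ∈ D.O) : g x ∈ D.O ∧ D.redF (g x) = t (D.redF x) := by
  obtain ⟨a, ha, b, hb, hb0, hab⟩ := hrep x hx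
  obtain ⟨haO, hgaO, hga⟩ := hS a ha
  obtain ⟨hbO, hgbO, hgb⟩ := hS b hb
  have h1 : g x * g b = g a := by rw [← map_mul, hab]
  have hgb0 : D.redF (g b) ≠ 0 := by rw [hgb]; exact (map_ne_zero t).2 hb0
  obtain ⟨h2, h3⟩ := Old.redF_of_mul_eq D hgaO hgb0 h1
  obtain ⟨-, h4⟩ := Old.redF_of_mul_eq D haO hb0 hab
  exact ⟨h2, by rw [h3, h4, hga, hgb, map_div₀]⟩

theorem mem_of_map_mem_of_rep_semi (D : GaussDatum B F Fk) (g : F →+* F) (t : Fk →+* Fk)
    (S : Set F)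
    (hS : ∀ a ∈ S, a ∈ D.O ∧ g a ∈ D.O ∧ D.redF (g a) = t (D.redF a))
    (hrep : ∀ x ∈ D.O, ∃ a ∈ S, ∃ b ∈ S, D.redF b ≠ 0 ∧ x * b = a)
    {x : F} (hx : g x ∈ D.O) : x ∈ D.O := by
  by_contra hxO
  obtain ⟨hxi, hred⟩ := Old.redF_inv_eq_zero_of_not_mem D hxO
  obtain ⟨h1, h2⟩ := mem_and_redF_of_rep_semi D g t S hS hrep hxi
  have hx0 : x ≠ 0 := by
    rintro rfl
    exact hxO (zero_mem _)
  have h3 : g x * g x⁻¹ = 1 := by rw [← map_mul, mul_inv_cancel₀ hx0, map_one]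
  have h4 := D.redF_mul hx h1
  rw [h3, D.redF_one, h2, hred, map_zero, mul_zero] at h4
  exact one_ne_zero h4

end Abstract

variable {M q : ℕ} [NeZero M] [NeZero q]
variable {A : ValuationSubring (AlgebraicClosure ℚ)}

local notation "kA" => IsLocalRing.ResidueField A
local notation "DA" => ValuationSubring.decompositionSubgroup ℚ A

/-- the coefficientwise action of `σ̄` on `FRes A M`, as a ring endomorphism -/
abbrev resHom (M : ℕ) [NeZero M] (g : DA) : FRes A M →+* FRes A M :=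
  (SemilinearAut.toRingAut (C0.resAutD A M g) : FRes A M ≃+* FRes A M)

theorem resHom_apply (g : DA) (x : FRes A M) : resHom M g x = C0.resAutD A M g • x := rfl

theorem integralSet_specD {D1 : GaussDatum A (FBar (M * q)) (FRes A M)} (h1 : Old.IsGaussOne D1)
    (g : DA) (a : FBar (M * q)) (ha : a ∈ Kum.integralSet (M * q) A) :
    a ∈ D1.O ∧ Kum.galHom (M * q) (g : Qb ≃ₐ[ℚ] Qb) a ∈ D1.O ∧
      D1.redF (Kum.galHom (M * q) (g : Qb ≃ₐ[ℚ] Qb) a) = resHom M g (D1.redF a) := by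
  obtain ⟨y, hy, rfl⟩ := ha
  set σ : Qb ≃ₐ[ℚ] Qb := (g : Qb ≃ₐ[ℚ] Qb) with hσdef
  set y' : LaurentSeries A := coeffMap ((C0.sigmaA A g : A ≃+* A) : A →+* A) y with hy'
  have e1 : V.toL A y' = coeffMap (σ : Qb →+* Qb) (V.toL A y) :=
    C0.coeffMap_subtype_sigmaA A g y
  have hmem : V.toL A y' ∈ modularFunctionFieldBar (M * q) := by
    rw [e1]; exact (Kum.galHom (M * q) σ ⟨V.toL A y, hy⟩).2
  have e2 : Kum.galHom (M * q) σ ⟨V.toL A y, hy⟩ = ⟨V.toL A y', hmem⟩ :=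
    Subtype.ext e1.symm
  have e3 : V.toK A y' =
      coeffMap ((C0.sigmaBar A g : kA ≃+* kA) : kA →+* kA) (V.toK A y) :=
    C0.coeffMap_residue_sigmaA A g y
  refine ⟨h1.mem y hy, ?_, ?_⟩
  · rw [e2]
    exact h1.mem y' hmem
  · rw [e2]
    apply Subtype.ext
    rw [h1.red y' hmem, e3, resHom_apply, C0.coe_resAutD_smul, h1.red y hy]

/-- **`mem₁`, `red₁` for the decomposition group** -/
theorem gaussOne_decomp {D1 : GaussDatum A (FBar (M * q)) (FRes A M)} (h1 : Old.IsGaussOne D1)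
    (hO1 : ∀ x ∈ D1.O, x ∈ V.gaussSubring (M * q) A) (g : DA) (x : FBar (M * q)) :
    (Kum.galHom (M * q) (g : Qb ≃ₐ[ℚ] Qb) x ∈ D1.O ↔ x ∈ D1.O) ∧
      (x ∈ D1.O → D1.redF (Kum.galHom (M * q) (g : Qb ≃ₐ[ℚ] Qb) x) =
        resHom M g (D1.redF x)) := by
  have hS := integralSet_specD h1 g
  have hrep : ∀ x ∈ D1.O, ∃ a ∈ Kum.integralSet (M * q) A, ∃ b ∈ Kum.integralSet (M * q) A,
      D1.redF b ≠ 0 ∧ x * b = a := fun x hx => Kum.exists_rep_of_mem_gaussSubring h1 (hO1 x hx)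
  exact ⟨⟨fun h => mem_of_map_mem_of_rep_semi D1 _ _ _ hS hrep h,
    fun h => (mem_and_redF_of_rep_semi D1 _ _ _ hS hrep h).1⟩,
    fun h => (mem_and_redF_of_rep_semi D1 _ _ _ hS hrep h).2⟩

/-- **`mem₂`, `red₂` for the decomposition group**: transport by `wq` -/
theorem gaussTwo_decomp {D1 D2 : GaussDatum A (FBar (M * q)) (FRes A M)}
    (h1 : Old.IsGaussOne D1) (hO1 : ∀ x ∈ D1.O, x ∈ V.gaussSubring (M * q) A)
    {wq : FBar (M * q) →+* FBar (M * q)} (h2 : Old.IsGaussTwo D1 D2 wq) (g : DA)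
    (hwq : ∀ f : FBar (M * q),
      wq (arithmeticRingAut (modularFunctionFieldFull (M * q)) (g : Qb ≃ₐ[ℚ] Qb) f) =
        arithmeticRingAut (modularFunctionFieldFull (M * q)) (g : Qb ≃ₐ[ℚ] Qb) (wq f))
    (x : FBar (M * q)) :
    (Kum.galHom (M * q) (g : Qb ≃ₐ[ℚ] Qb) x ∈ D2.O ↔ x ∈ D2.O) ∧
      (x ∈ D2.O → D2.redF (Kum.galHom (M * q) (g : Qb ≃ₐ[ℚ] Qb) x) =
        resHom M g (D2.redF x)) := by
  have hwq' : ∀ f : FBar (M * q), wq (Kum.galHom (M * q) (g : Qb ≃ₐ[ℚ] Qb) f) =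
      Kum.galHom (M * q) (g : Qb ≃ₐ[ℚ] Qb) (wq f) := hwq
  have key := gaussOne_decomp h1 hO1 g (wq x)
  refine ⟨?_, fun hx => ?_⟩
  · rw [h2.mem_iff, hwq', key.1, ← h2.mem_iff]
  · rw [h2.redF, hwq', key.2 ((h2.mem_iff x).1 hx), ← h2.redF]

end Fermat.Agent.LSc.Inst
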