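/-
LSc / Inst / NodeFix  (helper4)

**The node places of the modular datum are fixed by the square of the coefficientwise Frobenius**
("supersingular points are `𝔽_{q²}`-rational"), as a formal consequence of (GLUE):

* `frobPlace_eq_smul`  : `Fr_* x = τ • x` for the `k`-linear Frobenius substitution `Fr = Vq`
  (`t ↦ t ^ q`) and the coefficientwise Frobenius `τ = C0.frobAut` (because `Fr (τ y) = y ^ q`);
* `glue_wq`            : (GLUE) for `w_q f₀`: every `z` regular away from the poles of `j̄` has the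
  same value at `Fr_* Fr_* x'` and at `x'`, `x'` a node;
* `frobPlace_frobPlace_of_mem_modNodes` : `Fr_* Fr_* x' = x'` (functions separate places);
* `frobAut_sq_smul_modX₂`, `frobAut_sq_smul_modX₁` : `τ² • xᵢ c = xᵢ c`.
-/
import Fermat.Agent.LSc.Inst.CtxC
import Fermat.Agent.S37lib.C0.Wire
import Fermat.Agent.S37lib.B3.Descent

set_option autoImplicit false
set_option linter.unusedSectionVars false
set_option linter.unusedVariables false
set_option linter.style.haveILetI false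

noncomputable section

namespace Fermat.Agent.LSc.Inst

open AlgebraicCurve ModularCurve HahnSeries Fermat.Agent.S18lib Fermat.Agent.ProgramR
open Fermat.Agent.LSb Fermat.Agent.LSb.Unit Fermat.Agent.S37lib
open scoped Pointwise

local notation "Qb" => AlgebraicClosure ℚ

variable {M q : ℕ} [NeZero M] [NeZero q] [hq : Fact q.Prime]
variable {A : ValuationSubring (AlgebraicClosure ℚ)}

local notation "kA" => IsLocalRing.ResidueField A

/-- the coefficientwise Frobenius of `FRes A M` (`S37lib.C0.frobAut`) -/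
def tauQ (M : ℕ) [NeZero M] (hA : A.LiesOverPrime q) : SemilinearAut kA (FRes A M) :=
  haveI := C0.expChar_kRes hA
  haveI := C0.perfectRing_kRes hA
  C0.frobAut A M q

theorem tauQ_smul_eq_frobCoeff (hA : A.LiesOverPrime q) (z : FRes A M) :
    tauQ M hA • z = Old.frobCoeff hA z := by
  haveI := C0.expChar_kRes hA
  haveI := C0.perfectRing_kRes hA
  apply Subtype.ext
  show ((C0.frobAut A M q • z : FRes A M) : LaurentSeries kA) = _
  rw [C0.coe_frobAut_smul]
  rfl

/-- `Fr (τ y) = y ^ q` -/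
theorem VqR_tauQ_smul (hA : A.LiesOverPrime q) (z : FRes A M) :
    VqR hA (tauQ M hA • z) = z ^ q := by
  rw [tauQ_smul_eq_frobCoeff]
  exact Old.Vq_frobCoeff hA z

theorem pow_mem_valuationSubring_iff {F : Type*} [Field F] (O : ValuationSubring F) (y : F)
    {n : ℕ} (hn : n ≠ 0) : y ^ n ∈ O ↔ y ∈ O := by
  rw [← O.valuation_le_one_iff, ← O.valuation_le_one_iff, map_pow]
  exact pow_le_one_iff hn

/-- `Fr_* x = τ • x` -/
theorem frobPlace_eq_smul (hA : A.LiesOverPrime q) (x : Place kA (FRes A M))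
    (h : x.toValuationSubring.comap (VqR hA) ≠ ⊤) :
    frobPlace (VqR hA) (VqR_algebraMap hA) x h = tauQ M hA • x := by
  ext1
  ext y
  rw [mem_frobPlace_iff, SemilinearAut.smul_toValuationSubring,
    ValuationSubring.mem_pointwise_smul_iff_inv_smul_mem]
  have h1 : VqR hA y = ((tauQ M hA)⁻¹ • y) ^ q := by
    rw [← VqR_tauQ_smul, smul_inv_smul]
  rw [h1, pow_mem_valuationSubring_iff _ _ (NeZero.ne q)]

section Glue

variable [HasPrincipalDivisors (AlgebraicClosure ℚ) (FBar (M * q))]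
variable [HasPrincipalDivisors (IsLocalRing.ResidueField A) (FRes A M)]

variable (hqM : ¬ q ∣ M) (hA : A.LiesOverPrime q)
variable {D1 : GaussDatum A (FBar (M * q)) (FRes A M)} (h1 : Old.IsGaussOne D1)

include hqM h1 in
/-- **(GLUE) for `w_q f₀`**: a function `z` regular away from the poles of `j̄` has the same value
at `Fr_* x'` after `Fr` and at `x'`, for a node `x'` -/
theorem glue_wq {gM : ℕ} (hFk : IsCurveOfGenus kA (FRes A M) gM)
    {x' : Place kA (FRes A M)} (hx : x' ∈ modNodes D1)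
    {z : FRes A M} (hz : z ∈ regAway kA (Gink.jK A M)) :
    ∃ α : kA, LSb.HasValueAt
        (frobPlace (VqR hA) (VqR_algebraMap hA) x'
          (comap_ne_top_of_pow (VqR hA) hq.out.pos (VqR_pow hA) _)) (VqR hA z) α ∧
      LSb.HasValueAt x' z α := by
  set D2 := modD2 hqM D1 with hD2
  have h2 : Old.IsGaussTwo D1 D2 (wqR M q hqM) := isGaussTwo_modD2 hqM D1
  have hwq : ∀ x, wqR M q hqM (wqR M q hqM x) = x := fun x => Val.wq_wq M q hq.out hqM x
  obtain ⟨n, θ, hfr⟩ : ∃ (n : ℕ) (θ : Fin n → FBar (M * q)),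
      Frame.IsFrameFamilyS D1 D2 (Gin0.jF (M * q)) θ := by
    obtain ⟨θ, hfr⟩ := Frame.modular_exists_isFrameFamilyS hqM hA h1 h2 hwq
    exact ⟨_, θ, hfr⟩
  have hJ1 := redF_jF₁ hqM hA h1
  have hJ2 := redF_jF₂ hqM hA h1 h2
  have hVJ : VqR hA (Gink.jK A M) ∈ regAway kA (Gink.jK A M) := by
    intro Q hQ
    rw [VqR_jK]
    exact Q.toValuationSubring.pow_mem hQ q
  have hchart1 : ∀ f ∈ regAway Qb (Gin0.jF (M * q)), f ∈ D1.O → f ∈ D2.O →
      D1.redF f ∈ regAway kA (Gink.jK A M) := by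
    intro f hf hf1 hf2
    have := (red_mem_regAway hfr hf hf1 hf2).1
    rwa [hJ1] at this
  have hchart2 : ∀ f ∈ regAway Qb (Gin0.jF (M * q)), f ∈ D1.O → f ∈ D2.O →
      D2.redF f ∈ regAway kA (Gink.jK A M) := by
    intro f hf hf1 hf2 Q hQ
    have := (red_mem_regAway hfr hf hf1 hf2).2
    rw [hJ2] at this
    exact this Q (hVJ Q hQ)
  have hlift : ∀ z : FRes A M, z ∈ regAway kA (Gink.jK A M) →
      ∃ f ∈ regAway Qb (Gin0.jF (M * q)), f ∈ D1.O ∧ f ∈ D2.O ∧ D1.redF f = z ∧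
        D2.redF f = VqR hA z := fun z hz => Old.exists_lift hqM hA h1 h2 z hz
  have hY2 : D2.redF (Yw M q hqM) ≠ 0 := by
    rw [redF₂_Yw hqM h2]; exact H₂_ne_zero h1
  have hx'H : x'.adicValuation (D2.redF (Yw M q hqM)) < 1 := by
    rw [redF₂_Yw hqM h2]; exact hx.2
  -- the lift `f₀` of `z` and `f = w_q f₀`
  obtain ⟨f₀, hf₀, hf₀1, hf₀2, hr1, hr2⟩ := hlift z hz
  set f : FBar (M * q) := wqR M q hqM f₀ with hf
  have hfreg : f ∈ regAway Qb (Gin0.jF (M * q)) := wq_mem_regAway hqM hf₀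
  have hf1 : f ∈ D1.O := (h2.mem_iff f₀).1 hf₀2
  have hf2 : f ∈ D2.O := by
    rw [h2.mem_iff, hf, hwq]
    exact hf₀1
  have hfr1 : D1.redF f = VqR hA z := by
    rw [hf, ← h2.redF, hr2]
  have hfr2 : D2.redF f = z := by
    rw [h2.redF, hf, hwq, hr1]
  obtain ⟨α, hα1, hα2⟩ := glue_regAway D1 D2 (rankOne_of_liesOverPrime A hA) (Gin0.jF (M * q))
    (Gink.jK A M) (VqR hA) (VqR_algebraMap hA) hFk.deg_eq_one hchart1 hchart2 hVJ hlift
    (Yw_mem_regAway hqM) (Yw_inv_mem_regAway hqM) hY2 x' hx.1 hx'H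
    (comap_ne_top_of_pow (VqR hA) hq.out.pos (VqR_pow hA) _) hfreg hf1 hf2
  rw [hfr1] at hα1
  rw [hfr2] at hα2
  exact ⟨α, hα1, hα2⟩

include hqM h1 in
/-- **the nodes are fixed by `Fr_*²`** -/
theorem frobPlace_frobPlace_of_mem_modNodes {gM : ℕ} (hFk : IsCurveOfGenus kA (FRes A M) gM)
    {x' : Place kA (FRes A M)} (hx : x' ∈ modNodes D1) :
    frobPlace (VqR hA) (VqR_algebraMap hA)
      (frobPlace (VqR hA) (VqR_algebraMap hA) x'
        (comap_ne_top_of_pow (VqR hA) hq.out.pos (VqR_pow hA) _))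
      (comap_ne_top_of_pow (VqR hA) hq.out.pos (VqR_pow hA) _) = x' := by
  set x₁ := frobPlace (VqR hA) (VqR_algebraMap hA) x'
    (comap_ne_top_of_pow (VqR hA) hq.out.pos (VqR_pow hA) _) with hx₁
  set x₂ := frobPlace (VqR hA) (VqR_algebraMap hA) x₁
    (comap_ne_top_of_pow (VqR hA) hq.out.pos (VqR_pow hA) _) with hx₂
  by_contra hne
  -- `j̄` is regular at `x'` and at `x₂`
  have hJx : Gink.jK A M ∈ x'.toValuationSubring := hx.1
  have hJ1 : Gink.jK A M ∈ x₁.toValuationSubring := by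
    rw [hx₁, mem_frobPlace_iff, VqR_jK]
    exact x'.toValuationSubring.pow_mem hJx q
  have hJ2 : Gink.jK A M ∈ x₂.toValuationSubring := by
    rw [hx₂, mem_frobPlace_iff, VqR_jK]
    exact x₁.toValuationSubring.pow_mem hJ1 q
  -- a separating function with poles at the poles of `j̄`
  have hnonconst : ∀ c : kA, Gink.jK A M ≠ algebraMap kA (FRes A M) c := by
    intro c hc
    apply Gink.transcendental_jK A M
    rw [hc]
    exact isAlgebraic_algebraMap _
  have hZdeg : 0 < Divisor.degree (polesOf (K := kA) (Gink.jK A M)) :=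
    B3.degree_polesOf_pos_of_nonconst hFk hnonconst
  have hZ : ∀ Q : Place kA (FRes A M), Gink.jK A M ∈ Q.toValuationSubring →
      polesOf (K := kA) (Gink.jK A M) Q = 0 := by
    intro Q hQ
    rw [polesOf_apply]
    have := (FF.mem_iff_ord_nonneg Q _).1 hQ
    omega
  obtain ⟨φ, hφ0, hφZ, hφ1, hφ2⟩ := B3.exists_separating hFk hZdeg (Ne.symm hne) (hZ _ hJx)
    (hZ _ hJ2) (n := 2 * gM + 1) (by omega)
  have hφreg : φ ∈ regAway kA (Gink.jK A M) := by
    intro Q hQ
    rw [FF.mem_iff_ord_nonneg]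
    have := hφZ Q
    rw [hZ Q hQ, mul_zero, neg_zero] at this
    exact this
  obtain ⟨α, hα1, hα2⟩ := glue_wq hqM hA h1 hFk hx hφreg
  -- `α = 0` since `φ` vanishes at `x'`
  have hα0 : α = 0 := by
    by_contra hα
    have h3 : LSb.HasValueAt x' φ 0 := by
      rw [LSb.hasValueAt_zero_iff]
      exact Or.inr hφ1
    exact hα (LSb.HasValueAt.unique hα2 h3)
  subst hα0
  -- so `φ` vanishes at `x₂`
  have h4 : LSb.HasValueAt x₂ φ 0 := by
    rw [hx₂, hasValueAt_frobPlace_iff]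
    exact hα1
  rw [LSb.hasValueAt_zero_iff] at h4
  rcases h4 with h4 | h4
  · exact hφ0 h4
  · omega

/-- `x₁ c = τ • x₂ c` -/
theorem modX₁_eq_smul (c : Fin (modS D1)) : modX₁ hA D1 c = tauQ M hA • modX₂ D1 c :=
  frobPlace_eq_smul hA _ _

include hqM h1 in
/-- `x₂ c = τ • x₁ c` -/
theorem modX₂_eq_smul {gM : ℕ} (hFk : IsCurveOfGenus kA (FRes A M) gM) (c : Fin (modS D1)) :
    modX₂ D1 c = tauQ M hA • modX₁ hA D1 c := by
  have h := frobPlace_frobPlace_of_mem_modNodes hqM hA h1 hFk (modX₂_mem (D1 := D1) c)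
  rw [frobPlace_eq_smul hA] at h
  exact h.symm

include hqM h1 in
/-- **`τ² • x₂ c = x₂ c`** -/
theorem tauQ_sq_smul_modX₂ {gM : ℕ} (hFk : IsCurveOfGenus kA (FRes A M) gM)
    (c : Fin (modS D1)) : (tauQ M hA * tauQ M hA) • modX₂ D1 c = modX₂ D1 c := by
  rw [mul_smul, ← modX₁_eq_smul hA c, ← modX₂_eq_smul hqM hA h1 hFk c]

include hqM h1 in
/-- **`τ² • x₁ c = x₁ c`** -/
theorem tauQ_sq_smul_modX₁ {gM : ℕ} (hFk : IsCurveOfGenus kA (FRes A M) gM)
    (c : Fin (modS D1)) : (tauQ M hA * tauQ M hA) • modX₁ hA D1 c = modX₁ hA D1 c := by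
  rw [mul_smul, ← modX₂_eq_smul hqM hA h1 hFk c, ← modX₁_eq_smul hA c]

end Glue

end Fermat.Agent.LSc.Inst
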