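/-
LSc / Inst / Insep  (helper7)

The purely inseparable extension `Vq : FRes A M → FRes A M` (`t ↦ t ^ q`), `q` the residue
characteristic:

* `norm_eq_of_pow_eq` : in an extension `K / K'` of degree `p = char` with `z ^ p = a ∈ K'`, the norm of
  `z` is `a` (no separability, no power basis: `N(z)^p = N(z^p) = a^p` and Frobenius is injective);
* `jK_not_mem_range_Vq`, `linearIndependent_jK_pow` : `1, j̄, …, j̄^(q-1)` are linearly independent over
  `Vq (FRes A M)`;
* `norm_Vq` : for ANY algebra structure of `FRes A M` over itself through `Vq` of degree `q`,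
  `N(z) = z^{(q)}` (the coefficientwise Frobenius twist).
-/
import Mathlib
import Fermat.Agent.LSb.Old.Lift
import Fermat.Agent.S28lib.Kummer

set_option autoImplicit false
set_option linter.unusedSectionVars false
set_option linter.unusedVariables false
set_option linter.style.haveILetI false

noncomputable section

namespace Fermat.Agent.LSc.Inst

open ModularCurve Polynomial Fermat.Agent.S18lib Fermat.Agent.LSb

local notation "Qb" => AlgebraicClosure ℚ

/-! ### norms in a purely inseparable extension of exponent one -/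

section General

variable {K' K : Type*} [Field K'] [Field K] [Algebra K' K]

/-- if `[K : K'] = p = char K'` and `z ^ p = a ∈ K'` then `N_{K/K'} z = a` -/
theorem norm_eq_of_pow_eq (p : ℕ) [Fact p.Prime] [CharP K' p]
    (hdeg : Module.finrank K' K = p) {z : K} {a : K'} (ha : algebraMap K' K a = z ^ p) :
    Algebra.norm K' z = a := by
  have h1 : Algebra.norm K' z ^ p = a ^ p := by
    rw [← map_pow, ← ha, Algebra.norm_algebraMap, hdeg]
  exact frobenius_inj K' p h1


/-- **determinant of multiplication in a purely inseparable extension of exponent one**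
(instance-free): if `ω` is `ι`-linearly independent, indexed by a type of cardinality `p = char K'`,
`m` is the matrix of multiplication by `z` on `ω`, and `z ^ p = ι w`, then `det m = w`. -/
theorem det_eq_of_pow_eq {J : Type*} [Fintype J] [DecidableEq J] (ι : K' →+* K) (p : ℕ)
    [Fact p.Prime] [CharP K' p] (hcard : Fintype.card J = p) {ω : J → K}
    (hω : ∀ c : J → K', ∑ i, ι (c i) * ω i = 0 → c = 0) {z : K} {w : K'} (hw : ι w = z ^ p)
    (m : Matrix J J K') (hm : ∀ j, z * ω j = ∑ i, ι (m i j) * ω i) : m.det = w := by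
  -- powers of `m` represent powers of `z`
  have hpow : ∀ n : ℕ, ∀ j, z ^ n * ω j = ∑ i, ι ((m ^ n) i j) * ω i := by
    intro n
    induction n with
    | zero =>
      intro j
      rw [pow_zero, one_mul, pow_zero]
      simp [Matrix.one_apply, Finset.sum_ite_eq']
    | succ n ih =>
      intro j
      rw [pow_succ, mul_assoc, hm j, Finset.mul_sum]
      have h1 : ∀ i ∈ Finset.univ, z ^ n * (ι (m i j) * ω i) =
          ∑ l, ι ((m ^ n) l i * m i j) * ω l := by
        intro i _
        rw [mul_left_comm, ih i, Finset.mul_sum]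
        refine Finset.sum_congr rfl fun l _ => ?_
        rw [map_mul]; ring
      rw [Finset.sum_congr rfl h1, Finset.sum_comm]
      refine Finset.sum_congr rfl fun l _ => ?_
      rw [← Finset.sum_mul, pow_succ, Matrix.mul_apply, map_sum]
  -- `m ^ p = w • 1`
  have hmp : m ^ p = w • (1 : Matrix J J K') := by
    ext i j
    have h1 := hpow p j
    rw [← hw] at h1
    have h2 : ∑ l, ι ((m ^ p) l j - (w • (1 : Matrix J J K')) l j) * ω l = 0 := by
      simp only [map_sub, sub_mul, Finset.sum_sub_distrib]
      rw [← h1]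
      have h4 : ∑ l, ι ((w • (1 : Matrix J J K')) l j) * ω l = ι w * ω j := by
        rw [Finset.sum_eq_single j]
        · simp [Matrix.smul_apply, Matrix.one_apply]
        · intro l _ hlj
          simp [Matrix.smul_apply, Matrix.one_apply, hlj]
        · intro hj
          exact absurd (Finset.mem_univ j) hj
      rw [h4, sub_self]
    have h3 := congrFun (hω _ h2) i
    exact sub_eq_zero.mp h3
  have hdet : m.det ^ p = w ^ p := by
    rw [← Matrix.det_pow, hmp, Matrix.det_smul, Matrix.det_one, mul_one, hcard]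
  exact frobenius_inj K' p hdet

end General

/-! ### the extension `Vq` -/

section Vq

variable {M q : ℕ} [NeZero M] [NeZero q] [hq : Fact q.Prime]
variable {A : ValuationSubring (AlgebraicClosure ℚ)}

local notation "kA" => IsLocalRing.ResidueField A

/-- `j̄` is not a series in `t ^ q` -/
theorem jK_not_mem_range_Vq (hA : A.LiesOverPrime q) (b : FRes A M) :
    Old.Vq M q A hA b ≠ Gink.jK A M := by
  intro h
  have h1 := congrArg (fun z : FRes A M => (z : LaurentSeries kA).coeff (-1)) h
  simp only [Old.coe_Vq, Gink.coe_jK] at h1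
  have h2 : (jqModC kA).coeff (-1) = 1 := by
    have := S28lib.coeff_aeval_jqModC_neg_natDegree (R := kA) (X : kA[X])
    simpa using this
  have h3 : (qExpand kA q ((b : FRes A M) : LaurentSeries kA)).coeff (-1) = 0 := by
    apply qExpand_coeff_of_not_dvd
    intro hdvd
    have h4 : (q : ℤ) ∣ 1 := (Int.dvd_neg).mp hdvd
    have h5 : q ∣ 1 := by exact_mod_cast h4
    exact hq.out.one_lt.ne' (Nat.dvd_one.mp h5)
  rw [h2, h3] at h1
  exact zero_ne_one h1

/-- `j̄^{(q)}` is not a `q`-th power -/
theorem frobCoeff_jK_ne_pow (hA : A.LiesOverPrime q) (b : FRes A M) :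
    b ^ q ≠ Old.frobCoeff hA (Gink.jK A M) := by
  intro h
  haveI := Old.charP_kRes hA
  haveI : CharP (FRes A M) q :=
    charP_of_injective_algebraMap (algebraMap kA (FRes A M)).injective q
  have h1 := congrArg (Old.Vq M q A hA) h
  rw [map_pow, Old.Vq_frobCoeff] at h1
  exact jK_not_mem_range_Vq hA b (frobenius_inj (FRes A M) q h1)

/-- **`1, j̄, …, j̄^(q-1)` are linearly independent over `Vq (FRes A M)`** (instance-free form) -/
theorem eq_zero_of_eval₂_Vq_jK (hA : A.LiesOverPrime q) (P : (FRes A M)[X]) (hP : P.natDegree < q)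
    (h : P.eval₂ ((Old.Vq M q A hA : FRes A M →ₐ[kA] FRes A M) : FRes A M →+* FRes A M)
      (Gink.jK A M) = 0) : P = 0 := by
  by_contra hP0
  letI : Algebra (FRes A M) (FRes A M) :=
    ((Old.Vq M q A hA : FRes A M →ₐ[kA] FRes A M) : FRes A M →+* FRes A M).toAlgebra
  have hirr : Irreducible (X ^ q - C (Old.frobCoeff hA (Gink.jK A M)) : (FRes A M)[X]) :=
    X_pow_sub_C_irreducible_of_prime hq.out (fun b => frobCoeff_jK_ne_pow hA b)
  have hmonic : (X ^ q - C (Old.frobCoeff hA (Gink.jK A M)) : (FRes A M)[X]).Monic :=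
    monic_X_pow_sub_C _ hq.out.ne_zero
  have hroot : aeval (Gink.jK A M)
      (X ^ q - C (Old.frobCoeff hA (Gink.jK A M)) : (FRes A M)[X]) = 0 := by
    rw [map_sub, map_pow, aeval_X, aeval_C]
    show Gink.jK A M ^ q - Old.Vq M q A hA (Old.frobCoeff hA (Gink.jK A M)) = 0
    rw [Old.Vq_frobCoeff, sub_self]
  have hmin := minpoly.eq_of_irreducible_of_monic hirr hroot hmonic
  have hdeg : (minpoly (FRes A M) (Gink.jK A M)).natDegree = q := by
    rw [← hmin]
    exact natDegree_X_pow_sub_C
  have hle := minpoly.degree_le_of_ne_zero (FRes A M) (Gink.jK A M) hP0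
    (by rw [aeval_def]; exact h)
  have hle' : (minpoly (FRes A M) (Gink.jK A M)).natDegree ≤ P.natDegree :=
    natDegree_le_natDegree hle
  omega

theorem eq_zero_of_sum_Vq_mul_jK_pow (hA : A.LiesOverPrime q) (c : Fin q → FRes A M)
    (h : ∑ i : Fin q, Old.Vq M q A hA (c i) * Gink.jK A M ^ (i : ℕ) = 0) : c = 0 := by
  classical
  set P : (FRes A M)[X] := ∑ i : Fin q, C (c i) * X ^ (i : ℕ) with hPdef
  have hdeg : P.natDegree < q := by
    have hle : P.degree < (q : WithBot ℕ) := degree_sum_fin_lt c
    by_cases hP0 : P = 0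
    · rw [hP0, natDegree_zero]; exact hq.out.pos
    · exact (natDegree_lt_iff_degree_lt hP0).mpr hle
  have heval : P.eval₂ ((Old.Vq M q A hA : FRes A M →ₐ[kA] FRes A M) : FRes A M →+* FRes A M)
      (Gink.jK A M) = 0 := by
    rw [hPdef, eval₂_finsetSum]
    simp only [eval₂_mul, eval₂_C, eval₂_pow, eval₂_X]
    exact h
  have hP0 := eq_zero_of_eval₂_Vq_jK hA P hdeg heval
  funext i
  have hcoef := congrArg (fun p : (FRes A M)[X] => p.coeff (i : ℕ)) hP0
  simp only [hPdef, finsetSum_coeff, coeff_C_mul, coeff_X_pow, coeff_zero] at hcoef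
  rw [Finset.sum_eq_single i] at hcoef
  · simpa using hcoef
  · intro j _ hji
    have : (i : ℕ) ≠ (j : ℕ) := fun h' => hji (Fin.ext h'.symm)
    simp [this]
  · intro hi
    exact absurd (Finset.mem_univ i) hi

end Vq

end Fermat.Agent.LSc.Inst
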