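/-
LSc / Inst / Restrict  (helper7)   — brick I2 of route FN (S35)

The restriction data of the two Gauss valuations `D1`, `D2` of `F = FBar (M q)` to the `q`-old
subfield `F' = alpha (FBar M)` (algebra structure `algebraAlong (heckeAlphaBar Qb M q)`), with
`D° = V.gaussDatum M A hqM hA`:

* `restricts₁ : Restricts D° D1` (residue extension `id`), `restricts₂ : Restricts D° (toV D2)`
  (residue extension `Vq : t ↦ t ^ q`, carried by the type synonym `FResV`);
* `finrank_FResV : [FRes A M : Vq (FRes A M)] = q` (fundamental inequality from helper9's lifted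
  frames + independence of `1, j̄, …, j̄^(q-1)`);
* **`redF_norm_alpha`** : for `f ∈ O₁ ∩ O₂`, `N_{F/F'} f ∈ O°` and
  `red° (N_{F/F'} f) = red₁ f * (red₂ f)^{(q)}`   (`^{(q)}` = coefficientwise Frobenius `frobCoeff`).
-/
import Mathlib
import Fermat.Agent.LSc.Core.NormRed
import Fermat.Agent.LSc.Inst.Insep
import Fermat.Agent.LSb.Frame.Modular
import Fermat.Agent.S37lib.ConjNorm.Inst
import Fermat.Agent.S37lib.HeckeInst.Basic

set_option autoImplicit false
set_option linter.unusedSectionVars false
set_option linter.unusedVariables false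
set_option linter.style.haveILetI false

noncomputable section

namespace Fermat.Agent.LSc.Inst

open AlgebraicCurve ModularCurve Polynomial Fermat.Agent.S18lib Fermat.Agent.LSb Fermat.Agent.LSc

local notation "Qb" => AlgebraicClosure ℚ

variable (M q : ℕ) [NeZero M] [NeZero q] [hq : Fact q.Prime]
variable (A : ValuationSubring (AlgebraicClosure ℚ))

local notation "kA" => IsLocalRing.ResidueField A

/-- a copy of `FRes A M`, viewed as an extension of `FRes A M` through `Vq : t ↦ t ^ q` -/
def FResV (hA : A.LiesOverPrime q) : Type := FRes A M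

instance instFieldFResV (hA : A.LiesOverPrime q) : Field (FResV M q A hA) :=
  inferInstanceAs (Field (FRes A M))

instance instAlgebraFResV (hA : A.LiesOverPrime q) : Algebra kA (FResV M q A hA) :=
  inferInstanceAs (Algebra kA (FRes A M))

instance instAlgebraVq (hA : A.LiesOverPrime q) : Algebra (FRes A M) (FResV M q A hA) :=
  ((Old.Vq M q A hA : FRes A M →ₐ[kA] FRes A M) : FRes A M →+* FRes A M).toAlgebra

variable {M q A}

theorem algebraMap_FResV (hA : A.LiesOverPrime q) (x : FRes A M) :
    algebraMap (FRes A M) (FResV M q A hA) x = Old.Vq M q A hA x := rfl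

/-- a Gauss datum with residue field `FRes A M`, viewed with residue field `FResV` -/
def toV (hA : A.LiesOverPrime q) (D : GaussDatum A (FBar (M * q)) (FRes A M)) :
    GaussDatum A (FBar (M * q)) (FResV M q A hA) := D

theorem toV_O (hA : A.LiesOverPrime q) (D : GaussDatum A (FBar (M * q)) (FRes A M)) :
    (toV hA D).O = D.O := rfl

theorem toV_redF (hA : A.LiesOverPrime q) (D : GaussDatum A (FBar (M * q)) (FRes A M))
    (f : FBar (M * q)) : (toV hA D).redF f = D.redF f := rfl

variable {D1 D2 : GaussDatum A (FBar (M * q)) (FRes A M)} {wq : FBar (M * q) →+* FBar (M * q)}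

section Restrict

/-- `D1` restricts to the level-`M` Gauss datum along `alpha`, residue extension trivial -/
theorem restricts₁ (hqM : ¬ q ∣ M) (hA : A.LiesOverPrime q) (h1 : Old.IsGaussOne D1) :
    letI := algebraAlong (heckeAlphaBar Qb M q)
    Restricts (V.gaussDatum M A hqM hA) D1 := by
  letI := algebraAlong (heckeAlphaBar Qb M q)
  exact
    { mem := fun y hy => (Old.alpha_mem_iff hqM hA h1 y).2 hy
      red := fun y hy => Old.redF_alpha hqM hA h1 y }

/-- `D2` restricts to the level-`M` Gauss datum along `alpha`, residue extension `Vq` -/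
theorem restricts₂ (hqM : ¬ q ∣ M) (hA : A.LiesOverPrime q) (h1 : Old.IsGaussOne D1)
    (h2 : Old.IsGaussTwo D1 D2 wq) :
    letI := algebraAlong (heckeAlphaBar Qb M q)
    Restricts (V.gaussDatum M A hqM hA) (toV hA D2) := by
  letI := algebraAlong (heckeAlphaBar Qb M q)
  exact
    { mem := fun y hy => (Old.alpha_mem_iff₂ hqM hA h1 h2 y).2 hy
      red := fun y hy => Old.redF_alpha₂ hqM hA h1 h2 y }

end Restrict

section Degree

/-- the identity `FRes A M → FResV` -/
def toFResV (hA : A.LiesOverPrime q) (x : FRes A M) : FResV M q A hA := x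

theorem smul_toFResV (hA : A.LiesOverPrime q) (c x : FRes A M) :
    c • toFResV hA x = toFResV hA (Old.Vq M q A hA c * x) := by
  rw [Algebra.smul_def, algebraMap_FResV]; rfl

/-- `1, j̄, …, j̄^(q-1)` are linearly independent over `Vq (FRes A M)` -/
theorem linearIndependent_jK_pow (hA : A.LiesOverPrime q) :
    LinearIndependent (FRes A M) (fun i : Fin q => toFResV hA ((Gink.jK A M) ^ (i : ℕ))) := by
  rw [Fintype.linearIndependent_iff]
  intro c hc
  have h := eq_zero_of_sum_Vq_mul_jK_pow hA c (by
    simp only [smul_toFResV] at hc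
    exact hc)
  intro i
  exact congrFun h i

/-- **fundamental inequality** for the second component: a finite family of `FRes A M`, linearly
independent over `Vq (FRes A M)`, has at most `q` members -/
theorem card_le_of_linearIndependent (hqM : ¬ q ∣ M) (hA : A.LiesOverPrime q)
    (h1 : Old.IsGaussOne D1) (h2 : Old.IsGaussTwo D1 D2 wq) (hwq : ∀ x, wq (wq x) = x)
    {J : Type*} [Fintype J] (b : J → FResV M q A hA) (hb : LinearIndependent (FRes A M) b) :
    Fintype.card J ≤ q := by
  letI := algebraAlong (heckeAlphaBar Qb M q)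
  haveI : Module.Finite (FBar M) (FBar (M * q)) := S37lib.HeckeInst.finite_alpha M q
  have hrank : Frame.RankOneDvd A := rankOne_of_liesOverPrime A hA
  have hne : D1.O ≠ (toV hA D2).O := Frame.O_ne hqM hA h1 h2 hwq
  obtain ⟨e, he⟩ := exists_isLiftedFrame (D1 := D1) (D2 := toV hA D2) hrank hne
    (fun _ : Unit => (1 : FRes A M)) b
  have hli := he.linearIndependent (restricts₁ hqM hA h1) (restricts₂ hqM hA h1 h2)
    (by
      rw [Fintype.linearIndependent_iff]
      intro c hc i
      simpa using hc) hb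
  have hcard := hli.fintype_card_le_finrank
  have hdeg : Module.finrank (FBar M) (FBar (M * q)) = q + 1 :=
    S37lib.ConjNorm.finrank_alpha M q hq.out hqM
  rw [Fintype.card_sum, Fintype.card_unit, hdeg] at hcard
  omega

/-- `FRes A M` is finite over `Vq (FRes A M)` -/
theorem finite_FResV (hqM : ¬ q ∣ M) (hA : A.LiesOverPrime q)
    (h1 : Old.IsGaussOne D1) (h2 : Old.IsGaussTwo D1 D2 wq) (hwq : ∀ x, wq (wq x) = x) :
    Module.Finite (FRes A M) (FResV M q A hA) := by
  have hrank : Module.rank (FRes A M) (FResV M q A hA) ≤ (q : Cardinal) := by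
    apply rank_le
    intro s hs
    have := card_le_of_linearIndependent hqM hA h1 h2 hwq (fun i : s => (i : FResV M q A hA)) hs
    simpa using this
  exact Module.rank_lt_aleph0_iff.mp (lt_of_le_of_lt hrank (Cardinal.natCast_lt_aleph0))

/-- **`[FRes A M : Vq (FRes A M)] = q`** -/
theorem finrank_FResV (hqM : ¬ q ∣ M) (hA : A.LiesOverPrime q)
    (h1 : Old.IsGaussOne D1) (h2 : Old.IsGaussTwo D1 D2 wq) (hwq : ∀ x, wq (wq x) = x) :
    Module.finrank (FRes A M) (FResV M q A hA) = q := by
  haveI := finite_FResV hqM hA h1 h2 hwq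
  apply le_antisymm
  · have := card_le_of_linearIndependent hqM hA h1 h2 hwq
      (Module.finBasis (FRes A M) (FResV M q A hA))
      (Module.finBasis (FRes A M) (FResV M q A hA)).linearIndependent
    simpa using this
  · have := (linearIndependent_jK_pow (M := M) hA).fintype_card_le_finrank
    simpa using this

/-- the norm of the extension `Vq` is the coefficientwise Frobenius -/
theorem norm_FResV (hqM : ¬ q ∣ M) (hA : A.LiesOverPrime q)
    (h1 : Old.IsGaussOne D1) (h2 : Old.IsGaussTwo D1 D2 wq) (hwq : ∀ x, wq (wq x) = x)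
    (z : FRes A M) :
    Algebra.norm (FRes A M) (toFResV hA z) = Old.frobCoeff hA z := by
  haveI := Old.charP_kRes hA
  haveI : CharP (FRes A M) q :=
    charP_of_injective_algebraMap (algebraMap kA (FRes A M)).injective q
  refine norm_eq_of_pow_eq q (finrank_FResV hqM hA h1 h2 hwq) ?_
  rw [algebraMap_FResV, Old.Vq_frobCoeff]
  rfl

end Degree

section Norm

/-- **NORM–REDUCTION for the `q`-old subfield** (brick I2 + C4 of route FN): for
`f ∈ O₁ ∩ O₂ ⊆ FBar (M q)`, the norm `N f ∈ FBar M` (along `alpha`) is integral for the level-`M`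
Gauss valuation and `red° (N f) = red₁ f * (red₂ f)^{(q)}`. -/
theorem redF_norm_alpha (hqM : ¬ q ∣ M) (hA : A.LiesOverPrime q)
    (h1 : Old.IsGaussOne D1) (h2 : Old.IsGaussTwo D1 D2 wq) (hwq : ∀ x, wq (wq x) = x)
    {f : FBar (M * q)} (hf1 : f ∈ D1.O) (hf2 : f ∈ D2.O) :
    letI := algebraAlong (heckeAlphaBar Qb M q)
    Algebra.norm (FBar M) f ∈ (V.gaussDatum M A hqM hA).O ∧
      (V.gaussDatum M A hqM hA).redF (Algebra.norm (FBar M) f) =
        D1.redF f * Old.frobCoeff hA (D2.redF f) := by
  letI := algebraAlong (heckeAlphaBar Qb M q)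
  haveI : Module.Finite (FBar M) (FBar (M * q)) := S37lib.HeckeInst.finite_alpha M q
  haveI := finite_FResV hqM hA h1 h2 hwq
  have hrank : Frame.RankOneDvd A := rankOne_of_liesOverPrime A hA
  have hne : D1.O ≠ (toV hA D2).O := Frame.O_ne hqM hA h1 h2 hwq
  have hdeg : Module.finrank (FBar M) (FBar (M * q)) =
      1 + Module.finrank (FRes A M) (FResV M q A hA) := by
    rw [finrank_FResV hqM hA h1 h2 hwq, add_comm]
    exact S37lib.ConjNorm.finrank_alpha M q hq.out hqM
  obtain ⟨hmem, hred⟩ := redF_norm_of_finrank_eq_one (V.gaussDatum M A hqM hA) D1 (toV hA D2)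
    hrank hne (restricts₁ hqM hA h1) (restricts₂ hqM hA h1 h2) (Module.finrank_self _) hdeg
    hf1 hf2
  refine ⟨hmem, ?_⟩
  have h3 : Algebra.norm (FRes A M) ((toV hA D2).redF f) = Old.frobCoeff hA (D2.redF f) :=
    norm_FResV hqM hA h1 h2 hwq (D2.redF f)
  rw [h3] at hred
  exact hred

/-- the same for `w_q f`: `red° (N (w_q f)) = red₂ f * (red₁ f)^{(q)}` (this is the norm along
`beta = w_q ∘ alpha`) -/
theorem redF_norm_alpha_wq (hqM : ¬ q ∣ M) (hA : A.LiesOverPrime q)
    (h1 : Old.IsGaussOne D1) (h2 : Old.IsGaussTwo D1 D2 wq) (hwq : ∀ x, wq (wq x) = x)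
    {f : FBar (M * q)} (hf1 : f ∈ D1.O) (hf2 : f ∈ D2.O) :
    letI := algebraAlong (heckeAlphaBar Qb M q)
    Algebra.norm (FBar M) (wq f) ∈ (V.gaussDatum M A hqM hA).O ∧
      (V.gaussDatum M A hqM hA).redF (Algebra.norm (FBar M) (wq f)) =
        D2.redF f * Old.frobCoeff hA (D1.redF f) := by
  have hw1 : wq f ∈ D1.O := (h2.mem_iff f).1 hf2
  have hw2 : wq f ∈ D2.O := by rw [h2.mem_iff, hwq]; exact hf1
  have hr1 : D1.redF (wq f) = D2.redF f := (h2.redF f).symm
  have hr2 : D2.redF (wq f) = D1.redF f := by rw [h2.redF, hwq]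
  have := redF_norm_alpha hqM hA h1 h2 hwq hw1 hw2
  rw [hr1, hr2] at this
  exact this

end Norm

end Fermat.Agent.LSc.Inst
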