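/-
LSc / Inst / DegInst  (helper7)   — route FN (S35): the two DEGENERACY RELATIONS, modular instance

For `F = FBar (M q)`, `q ∤ M`, the two Gauss data `D1`, `D2 = D1 ∘ w_q`, and the degeneracy maps
`α = heckeAlphaBar`, `β = heckeBetaBar : FBar M → FBar (M q)` with push-forwards
`α_*, β_* := LSb.Xfer.pic0PushforwardAlong …` on `Pic⁰`:  for a bi-unit `f` with `div f = n D₀`

* `isConstMulPow_alpha` : `α_* [D₀] = 0 ⇒ red₁ f · τ (red₂ f) ∈ kˣ · (F̄ˣ)ⁿ`,
* `isConstMulPow_beta`  : `β_* [D₀] = 0 ⇒ red₂ f · τ (red₁ f) ∈ kˣ · (F̄ˣ)ⁿ`,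

`τ = tauQ M hA` the coefficientwise Frobenius of `F̄ = FRes A M`.  These are exactly the hypotheses
`Hα`, `Hβ` of `LSc.frobNew_pic0` for `S₁₂ = S₂₁ = SemilinearAut.toRingAut (tauQ M hA)`
(`hAlpha`, `hBeta` below are stated in that literal shape).

Inputs: helper9's abstract degeneracy relation (`LSc/Core/NormPush`), the restriction data and
`[F̄ : Vq F̄] = q`, `N_{F̄/Vq F̄} = frobCoeff` of `LSc/Inst/Restrict`, helper4's `tauQ`.
-/
import Mathlib
import Fermat.Agent.LSc.Core.NormPush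
import Fermat.Agent.LSc.Core.FrobNew
import Fermat.Agent.LSc.Inst.Restrict
import Fermat.Agent.LSc.Inst.NodeFix
import Fermat.Agent.S37lib.HeckeInst.Final

set_option autoImplicit false
set_option linter.unusedSectionVars false
set_option linter.unusedVariables false
set_option linter.style.haveILetI false

noncomputable section

namespace Fermat.Agent.LSc.Inst

open AlgebraicCurve ModularCurve Fermat.Agent.S18lib Fermat.Agent.LSb Fermat.Agent.LSc
open Fermat.Agent.S37lib.HeckeInst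

/-! ### degrees along a ring homomorphism twisted by an involution -/

section Involution

variable {K F : Type*} [Field K] [Field F]

/-- `F` with the `K`-module structure through the ring homomorphism `a` -/
def ViaHom (a : K →+* F) : Type _ := F

instance instAddCommGroupViaHom (a : K →+* F) : AddCommGroup (ViaHom a) :=
  inferInstanceAs (AddCommGroup F)

instance instModuleViaHom (a : K →+* F) : Module K (ViaHom a) := a.toAlgebra.toModule

/-- if `b = w ∘ a` for an involution `w` of `F`, the degrees of `F` over `a K` and over `b K`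
agree -/
theorem finrank_toAlgebra_eq_of_involution (a b : K →+* F) (w : F →+* F)
    (hw : ∀ x, w (w x) = x) (hab : ∀ c, w (a c) = b c) :
    @Module.finrank K F _ _ a.toAlgebra.toModule = @Module.finrank K F _ _ b.toAlgebra.toModule := by
  have hsmul : ∀ (c : K) (x : F), w (a c * x) = b c * w x := fun c x => by
    rw [map_mul, hab]
  let e : ViaHom a ≃ₗ[K] ViaHom b :=
    { toFun := fun x => (w (show F from x) : F)
      map_add' := fun x y => map_add w (show F from x) (show F from y)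
      map_smul' := fun c x => hsmul c (show F from x)
      invFun := fun x => (w (show F from x) : F)
      left_inv := fun x => hw (show F from x)
      right_inv := fun x => hw (show F from x) }
  exact e.finrank_eq

/-- the degree of a field over itself through the identity -/
theorem finrank_id_toAlgebra (K : Type*) [Field K] :
    @Module.finrank K K _ _ (RingHom.id K).toAlgebra.toModule = 1 := by
  have h : (RingHom.id K).toAlgebra = Algebra.id K := Algebra.algebra_ext _ _ fun _ => rfl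
  rw [h]
  exact Module.finrank_self K

end Involution

local notation "Qb" => AlgebraicClosure ℚ

variable {M q : ℕ} [NeZero M] [NeZero q] [hq : Fact q.Prime]
variable {A : ValuationSubring (AlgebraicClosure ℚ)}

local notation "kA" => IsLocalRing.ResidueField A

/-! ### the degrees of the two degeneracy maps -/

/-- `[FBar (M q) : α (FBar M)] = q + 1` -/
theorem finrankAlong_alpha (hqM : ¬ q ∣ M) :
    finrankAlong Qb (heckeAlphaBar Qb M q) = q + 1 :=
  S37lib.ConjNorm.finrank_alpha M q hq.out hqM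

/-- `[FBar (M q) : β (FBar M)] = q + 1` (`β = w_q ∘ α`) -/
theorem finrankAlong_beta (hqM : ¬ q ∣ M) :
    finrankAlong Qb (heckeBetaBar Qb M q) = q + 1 := by
  have h := finrank_toAlgebra_eq_of_involution (heckeAlphaBar Qb M q).toRingHom
    (heckeBetaBar Qb M q).toRingHom
    ((Val.wq M q hq.out hqM : FBar (M * q) ≃ₐ[Qb] FBar (M * q)) : FBar (M * q) →+* FBar (M * q))
    (fun x => Val.wq_wq M q hq.out hqM x) (fun c => Val.wq_alpha M q hq.out hqM c)
  exact h.symm.trans (finrankAlong_alpha hqM)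

variable {D1 D2 : GaussDatum A (FBar (M * q)) (FRes A M)} {wq : FBar (M * q) →+* FBar (M * q)}

/-- `w_q ∘ β = α` for the abstract `w_q` of `IsGaussTwo` -/
theorem wq_beta_of_isGaussTwo (h2 : Old.IsGaussTwo D1 D2 wq) (hwq : ∀ x, wq (wq x) = x)
    (y : FBar M) : wq (Old.beta M q y) = Old.alpha M q y := by
  rw [← h2.wq_alpha, hwq]

/-- `[FRes A M : Vq (FRes A M)] = q`, in the `RingHom.toAlgebra` form -/
theorem finrank_Vq_toAlgebra (hqM : ¬ q ∣ M) (hA : A.LiesOverPrime q)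
    (h1 : Old.IsGaussOne D1) (h2 : Old.IsGaussTwo D1 D2 wq) (hwq : ∀ x, wq (wq x) = x) :
    @Module.finrank (FRes A M) (FRes A M) _ _
      ((Old.Vq M q A hA : FRes A M →ₐ[kA] FRes A M) : FRes A M →+* FRes A M).toAlgebra.toModule
        = q :=
  finrank_FResV hqM hA h1 h2 hwq

/-- `N_{F̄ / Vq F̄} = frobCoeff`, in the `RingHom.toAlgebra` form -/
theorem norm_Vq_toAlgebra (hqM : ¬ q ∣ M) (hA : A.LiesOverPrime q)
    (h1 : Old.IsGaussOne D1) (h2 : Old.IsGaussTwo D1 D2 wq) (hwq : ∀ x, wq (wq x) = x)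
    (z : FRes A M) :
    @Algebra.norm (FRes A M) (FRes A M) _ _
      ((Old.Vq M q A hA : FRes A M →ₐ[kA] FRes A M) : FRes A M →+* FRes A M).toAlgebra z
        = Old.frobCoeff hA z :=
  norm_FResV hqM hA h1 h2 hwq z

/-! ### the degeneracy relations, divisor form -/

section Divisor

variable [HasPrincipalDivisors Qb (FBar (M * q))]

/-- **(α), divisor form**: `α_* D₀` principal ⇒ `red₁ f · (red₂ f)^{(q)} ∈ kˣ (F̄ˣ)ⁿ` -/
theorem isConstMulPow_alpha_of_isPrincipal (hqM : ¬ q ∣ M) (hA : A.LiesOverPrime q)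
    (h1 : Old.IsGaussOne D1) (h2 : Old.IsGaussTwo D1 D2 wq) (hwq : ∀ x, wq (wq x) = x)
    {n : ℕ} {f : FBar (M * q)} (hf1 : D1.redF f ≠ 0) (hf2 : D2.redF f ≠ 0)
    {D₀ : Divisor Qb (FBar (M * q))}
    (hD₀ : ∀ P : Place Qb (FBar (M * q)), P.ord f = (n : ℤ) * D₀ P)
    (hpush : (Divisor.pushforwardAlong (heckeAlphaBar Qb M q)
      (heckeAlphaBarIntegral M q) D₀).IsPrincipal) :
    IsConstMulPow (A := A) n (D1.redF f * Old.frobCoeff hA (D2.redF f)) := by
  obtain ⟨g₀, hF₀, -⟩ := Gin0.exists_isCurveOfGenus_FBar M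
  have hrank : Frame.RankOneDvd A := rankOne_of_liesOverPrime A hA
  have hne : D1.O ≠ D2.O := Frame.O_ne hqM hA h1 h2 hwq
  have hdeg : finrankAlong Qb (heckeAlphaBar Qb M q) = 1 +
      @Module.finrank (FRes A M) (FRes A M) _ _
        ((Old.Vq M q A hA : FRes A M →ₐ[kA] FRes A M) :
          FRes A M →+* FRes A M).toAlgebra.toModule := by
    rw [finrank_Vq_toAlgebra hqM hA h1 h2 hwq, finrankAlong_alpha hqM, add_comm]
  have key := isConstMulPow_of_pushforward_isPrincipal (heckeAlphaBar Qb M q)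
    (heckeAlphaBarIntegral M q) (finiteAlong_alpha M q) (normFormulaAlong_alpha M q) hF₀
    (V.gaussDatum M A hqM hA) D1 D2 hrank hne (RingHom.id _)
    ((Old.Vq M q A hA : FRes A M →ₐ[kA] FRes A M) : FRes A M →+* FRes A M)
    (fun c => rfl)
    (fun y hy => (Old.alpha_mem_iff hqM hA h1 y).2 hy)
    (fun y hy => Old.redF_alpha hqM hA h1 y)
    (fun y hy => (Old.alpha_mem_iff₂ hqM hA h1 h2 y).2 hy)
    (fun y hy => Old.redF_alpha₂ hqM hA h1 h2 y)
    (finrank_id_toAlgebra _) hdeg hf1 hf2 hD₀ hpush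
  rw [norm_Vq_toAlgebra hqM hA h1 h2 hwq] at key
  exact key

/-- **(β), divisor form**: `β_* D₀` principal ⇒ `red₂ f · (red₁ f)^{(q)} ∈ kˣ (F̄ˣ)ⁿ` -/
theorem isConstMulPow_beta_of_isPrincipal (hqM : ¬ q ∣ M) (hA : A.LiesOverPrime q)
    (h1 : Old.IsGaussOne D1) (h2 : Old.IsGaussTwo D1 D2 wq) (hwq : ∀ x, wq (wq x) = x)
    {n : ℕ} {f : FBar (M * q)} (hf1 : D1.redF f ≠ 0) (hf2 : D2.redF f ≠ 0)
    {D₀ : Divisor Qb (FBar (M * q))}
    (hD₀ : ∀ P : Place Qb (FBar (M * q)), P.ord f = (n : ℤ) * D₀ P)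
    (hpush : (Divisor.pushforwardAlong (heckeBetaBar Qb M q)
      (heckeBetaBarIntegral M q) D₀).IsPrincipal) :
    IsConstMulPow (A := A) n (D2.redF f * Old.frobCoeff hA (D1.redF f)) := by
  obtain ⟨g₀, hF₀, -⟩ := Gin0.exists_isCurveOfGenus_FBar M
  have hrank : Frame.RankOneDvd A := rankOne_of_liesOverPrime A hA
  have hne : D2.O ≠ D1.O := (Frame.O_ne hqM hA h1 h2 hwq).symm
  have hdeg : finrankAlong Qb (heckeBetaBar Qb M q) = 1 +
      @Module.finrank (FRes A M) (FRes A M) _ _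
        ((Old.Vq M q A hA : FRes A M →ₐ[kA] FRes A M) :
          FRes A M →+* FRes A M).toAlgebra.toModule := by
    rw [finrank_Vq_toAlgebra hqM hA h1 h2 hwq, finrankAlong_beta hqM, add_comm]
  have hwb := wq_beta_of_isGaussTwo h2 hwq
  have key := isConstMulPow_of_pushforward_isPrincipal (heckeBetaBar Qb M q)
    (heckeBetaBarIntegral M q) (finiteAlong_beta M q) (normFormulaAlong_beta M q) hF₀
    (V.gaussDatum M A hqM hA) D2 D1 hrank hne (RingHom.id _)
    ((Old.Vq M q A hA : FRes A M →ₐ[kA] FRes A M) : FRes A M →+* FRes A M)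
    (fun c => rfl)
    (fun y hy => by
      rw [h2.mem_iff]
      show wq (Old.beta M q y) ∈ D1.O
      rw [hwb]
      exact (Old.alpha_mem_iff hqM hA h1 y).2 hy)
    (fun y hy => by
      rw [h2.redF]
      show D1.redF (wq (Old.beta M q y)) = _
      rw [hwb]
      exact Old.redF_alpha hqM hA h1 y)
    (fun y hy => (Old.beta_mem_iff hqM hA h1 y).2 hy)
    (fun y hy => Old.redF_beta hqM hA h1 y)
    (finrank_id_toAlgebra _) hdeg hf2 hf1 hD₀ hpush
  rw [norm_Vq_toAlgebra hqM hA h1 h2 hwq] at key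
  exact key

end Divisor

/-! ### the degeneracy relations, `Pic⁰` form -/

section Pic0

variable [HasPrincipalDivisors Qb (FBar (M * q))]

/-- `α_* : Pic⁰ (FBar (M q)) → Pic⁰ (FBar M)` -/
def alphaPush (M q : ℕ) [NeZero M] [NeZero q] [HasPrincipalDivisors Qb (FBar (M * q))] :
    Pic0 Qb (FBar (M * q)) →+ Pic0 Qb (FBar M) :=
  Xfer.pic0PushforwardAlong (heckeAlphaBar Qb M q) (heckeAlphaBarIntegral M q)
    (finiteAlong_alpha M q) (normFormulaAlong_alpha M q)

/-- `β_* : Pic⁰ (FBar (M q)) → Pic⁰ (FBar M)` -/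
def betaPush (M q : ℕ) [NeZero M] [NeZero q] [HasPrincipalDivisors Qb (FBar (M * q))] :
    Pic0 Qb (FBar (M * q)) →+ Pic0 Qb (FBar M) :=
  Xfer.pic0PushforwardAlong (heckeBetaBar Qb M q) (heckeBetaBarIntegral M q)
    (finiteAlong_beta M q) (normFormulaAlong_beta M q)

/-- **(α)**: `α_* [D₀] = 0`, `div f = n D₀`, `f` a bi-unit ⇒ `red₁ f · τ (red₂ f) ∈ kˣ (F̄ˣ)ⁿ` -/
theorem isConstMulPow_alpha (hqM : ¬ q ∣ M) (hA : A.LiesOverPrime q)
    (h1 : Old.IsGaussOne D1) (h2 : Old.IsGaussTwo D1 D2 wq) (hwq : ∀ x, wq (wq x) = x)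
    {n : ℕ} {f : FBar (M * q)} (hf1 : D1.redF f ≠ 0) (hf2 : D2.redF f ≠ 0)
    (D₀ : Divisor.degZero (K := Qb) (F := FBar (M * q)))
    (hD₀ : ∀ P : Place Qb (FBar (M * q)), P.ord f = (n : ℤ) * (D₀ : Divisor Qb (FBar (M * q))) P)
    (hx : alphaPush M q (Pic0.mk D₀) = 0) :
    IsConstMulPow (A := A) n
      (D1.redF f * SemilinearAut.toRingAut (tauQ M hA) (D2.redF f)) := by
  have hpush := isPrincipal_pushforwardAlong_of_eq_zero (heckeAlphaBar Qb M q)
    (heckeAlphaBarIntegral M q) (finiteAlong_alpha M q) (normFormulaAlong_alpha M q) D₀ hx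
  have key := isConstMulPow_alpha_of_isPrincipal hqM hA h1 h2 hwq hf1 hf2 hD₀ hpush
  rw [← tauQ_smul_eq_frobCoeff] at key
  exact key

/-- **(β)**: `β_* [D₀] = 0`, `div f = n D₀`, `f` a bi-unit ⇒ `red₂ f · τ (red₁ f) ∈ kˣ (F̄ˣ)ⁿ` -/
theorem isConstMulPow_beta (hqM : ¬ q ∣ M) (hA : A.LiesOverPrime q)
    (h1 : Old.IsGaussOne D1) (h2 : Old.IsGaussTwo D1 D2 wq) (hwq : ∀ x, wq (wq x) = x)
    {n : ℕ} {f : FBar (M * q)} (hf1 : D1.redF f ≠ 0) (hf2 : D2.redF f ≠ 0)
    (D₀ : Divisor.degZero (K := Qb) (F := FBar (M * q)))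
    (hD₀ : ∀ P : Place Qb (FBar (M * q)), P.ord f = (n : ℤ) * (D₀ : Divisor Qb (FBar (M * q))) P)
    (hx : betaPush M q (Pic0.mk D₀) = 0) :
    IsConstMulPow (A := A) n
      (D2.redF f * SemilinearAut.toRingAut (tauQ M hA) (D1.redF f)) := by
  have hpush := isPrincipal_pushforwardAlong_of_eq_zero (heckeBetaBar Qb M q)
    (heckeBetaBarIntegral M q) (finiteAlong_beta M q) (normFormulaAlong_beta M q) D₀ hx
  have key := isConstMulPow_beta_of_isPrincipal hqM hA h1 h2 hwq hf1 hf2 hD₀ hpush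
  rw [← tauQ_smul_eq_frobCoeff] at key
  exact key

/-! ### the literal hypotheses `Hα`, `Hβ` of `frobNew_pic0` -/

/-- `Hα` of `LSc.frobNew_pic0` for a nodal datum with `V₁ = D1`, `V₂ = D2`, from `α_* x = 0` -/
theorem hAlpha (hqM : ¬ q ∣ M) (hA : A.LiesOverPrime q)
    (h1 : Old.IsGaussOne D1) (h2 : Old.IsGaussTwo D1 D2 wq) (hwq : ∀ x, wq (wq x) = x)
    (D : NodalDatum A (FBar (M * q)) (FRes A M) (FRes A M)) (hV₁ : D.V₁ = D1) (hV₂ : D.V₂ = D2)
    (n : ℕ) (x : Pic0 Qb (FBar (M * q))) (hx : alphaPush M q x = 0) :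
    ∀ (D₀ : Divisor.degZero (K := Qb) (F := FBar (M * q))) (f : FBar (M * q)),
      x = Pic0.mk D₀ → IsBiUnit D f →
      (∀ P : Place Qb (FBar (M * q)),
        P.ord f = (n : ℤ) * (D₀ : Divisor Qb (FBar (M * q))) P) →
      IsConstMulPow (A := A) n
        (D.V₁.redF f * SemilinearAut.toRingAut (tauQ M hA) (D.V₂.redF f)) := by
  intro D₀ f hxD hbi hD₀
  subst hV₁ hV₂
  rw [hxD] at hx
  exact isConstMulPow_alpha hqM hA h1 h2 hwq hbi.1 hbi.2 D₀ hD₀ hx

/-- `Hβ` of `LSc.frobNew_pic0` for a nodal datum with `V₁ = D1`, `V₂ = D2`, from `β_* x = 0` -/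
theorem hBeta (hqM : ¬ q ∣ M) (hA : A.LiesOverPrime q)
    (h1 : Old.IsGaussOne D1) (h2 : Old.IsGaussTwo D1 D2 wq) (hwq : ∀ x, wq (wq x) = x)
    (D : NodalDatum A (FBar (M * q)) (FRes A M) (FRes A M)) (hV₁ : D.V₁ = D1) (hV₂ : D.V₂ = D2)
    (n : ℕ) (x : Pic0 Qb (FBar (M * q))) (hx : betaPush M q x = 0) :
    ∀ (D₀ : Divisor.degZero (K := Qb) (F := FBar (M * q))) (f : FBar (M * q)),
      x = Pic0.mk D₀ → IsBiUnit D f →
      (∀ P : Place Qb (FBar (M * q)),
        P.ord f = (n : ℤ) * (D₀ : Divisor Qb (FBar (M * q))) P) →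
      IsConstMulPow (A := A) n
        (D.V₂.redF f * SemilinearAut.toRingAut (tauQ M hA) (D.V₁.redF f)) := by
  intro D₀ f hxD hbi hD₀
  subst hV₁ hV₂
  rw [hxD] at hx
  exact isConstMulPow_beta hqM hA h1 h2 hwq hbi.1 hbi.2 D₀ hD₀ hx

end Pic0

end Fermat.Agent.LSc.Inst
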