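/-
LSc / Inst / FrobInst  (helper4)

**Brick I1 of route FN**: for a Frobenius lift `σ` at `A ∣ q`, the semilinear automorphism
`arithmeticGalois σ²` of `FBar (M q)` is FROBENIAL of exponent `q²` for the modular nodal datum
`modDatumC hA D1 D2 (m : A)` (chart constant a natural number), with `t₁ = t₂ = τ²`, `τ` the
coefficientwise Frobenius of `FRes A M`.
-/
import Fermat.Agent.LSc.Core.Frobenial
import Fermat.Agent.LSc.Inst.Decomp
import Fermat.Agent.LSc.Inst.NodeFix
import Fermat.Agent.LSc.Inst.GoodConst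

set_option autoImplicit false
set_option linter.unusedSectionVars false
set_option linter.unusedVariables false
set_option linter.style.haveILetI false

noncomputable section

namespace Fermat.Agent.LSc.Inst

open AlgebraicCurve ModularCurve HahnSeries Fermat.Agent.S18lib Fermat.Agent.ProgramR
open Fermat.Agent.LSb Fermat.Agent.LSb.Unit Fermat.Agent.S37lib

local notation "Qb" => AlgebraicClosure ℚ

variable {M q : ℕ} [NeZero M] [NeZero q] [hq : Fact q.Prime]
variable {A : ValuationSubring (AlgebraicClosure ℚ)}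

local notation "kA" => IsLocalRing.ResidueField A
local notation "DA" => ValuationSubring.decompositionSubgroup ℚ A

/-- a Frobenius lift as an element of the decomposition group -/
def frobD {σ : Qb ≃ₐ[ℚ] Qb} (hσ : A.IsFrobeniusAt σ q) : DA :=
  ⟨σ, hσ.mem_decompositionSubgroup⟩

theorem resAutD_frobD (hA : A.LiesOverPrime q) {σ : Qb ≃ₐ[ℚ] Qb} (hσ : A.IsFrobeniusAt σ q) :
    C0.resAutD A M (frobD hσ) = tauQ M hA := by
  haveI := C0.expChar_kRes hA
  haveI := C0.perfectRing_kRes hA
  exact C0.resAutD_eq_frobAut hσ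

theorem resAutD_mul (g h : DA) :
    C0.resAutD A M (g * h) = C0.resAutD A M g * C0.resAutD A M h := by
  have h1 : C0.sigmaBar A (g * h) = C0.sigmaBar A g * C0.sigmaBar A h :=
    (C0.sigmaBar A).map_mul g h
  exact (congrArg (C0.resAut kA M) h1).trans ((C0.resAut kA M).map_mul _ _)

theorem resAutD_frobD_sq (hA : A.LiesOverPrime q) {σ : Qb ≃ₐ[ℚ] Qb} (hσ : A.IsFrobeniusAt σ q) :
    C0.resAutD A M (frobD hσ * frobD hσ) = tauQ M hA * tauQ M hA := by
  rw [resAutD_mul, resAutD_frobD hA hσ]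

theorem baseAut_tauQ (hA : A.LiesOverPrime q) (c : kA) :
    SemilinearAut.baseAut (tauQ M hA) c = c ^ q := by
  haveI := C0.expChar_kRes hA
  haveI := C0.perfectRing_kRes hA
  show SemilinearAut.baseAut (C0.frobAut A M q) c = c ^ q
  rw [C0.frobAut, C0.baseAut_resAut]
  rfl

theorem baseAut_tauQ_sq (hA : A.LiesOverPrime q) (c : kA) :
    SemilinearAut.baseAut (tauQ M hA * tauQ M hA) c = c ^ (q ^ 2) := by
  rw [SemilinearAut.baseAut_mul]
  show SemilinearAut.baseAut (tauQ M hA) (SemilinearAut.baseAut (tauQ M hA) c) = _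
  rw [baseAut_tauQ, baseAut_tauQ, ← pow_mul, sq]

section Main

variable [HasPrincipalDivisors (AlgebraicClosure ℚ) (FBar (M * q))]
variable [HasPrincipalDivisors (IsLocalRing.ResidueField A) (FRes A M)]

/-- **(I1)** `arithmeticGalois σ²` is Frobenial of exponent `q²` for the modular datum with a
natural number as chart constant. -/
theorem modDatumC_isFrobenial (hqM : ¬ q ∣ M) (hA : A.LiesOverPrime q)
    {D1 : GaussDatum A (FBar (M * q)) (FRes A M)} (h1 : Old.IsGaussOne D1)
    (hO1 : ∀ x ∈ D1.O, x ∈ V.gaussSubring (M * q) A)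
    {gM : ℕ} (hFk : IsCurveOfGenus kA (FRes A M) gM)
    {σ : Qb ≃ₐ[ℚ] Qb} (hσ : A.IsFrobeniusAt σ q) (m : ℕ) :
    IsFrobenial (modDatumC hA D1 (modD2 hqM D1) ((m : ℕ) : A))
      (arithmeticGalois (modularFunctionFieldFull (M * q)) (σ * σ)) (q ^ 2)
      (tauQ M hA * tauQ M hA) (tauQ M hA * tauQ M hA) := by
  have h2 := isGaussTwo_modD2 hqM D1
  set g : DA := frobD hσ * frobD hσ with hg
  have hgσ : ((g : DA) : Qb ≃ₐ[ℚ] Qb) = σ * σ := rfl
  have hres : C0.resAutD A M g = tauQ M hA * tauQ M hA := resAutD_frobD_sq hA hσ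
  have hwq : ∀ f : FBar (M * q),
      wqR M q hqM (arithmeticRingAut (modularFunctionFieldFull (M * q)) (g : Qb ≃ₐ[ℚ] Qb) f) =
        arithmeticRingAut (modularFunctionFieldFull (M * q)) (g : Qb ≃ₐ[ℚ] Qb) (wqR M q hqM f) :=
    fun f => Val.wq_arithmeticRingAut M q hq.out hqM _ f
  have k1 := gaussOne_decomp h1 hO1 g
  have k2 := gaussTwo_decomp h1 hO1 h2 g hwq
  refine
    { mem₁ := fun y => (k1 y).1
      mem₂ := fun y => (k2 y).1
      red₁ := fun y hy => ?_
      red₂ := fun y hy => ?_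
      base₁ := baseAut_tauQ_sq hA
      base₂ := baseAut_tauQ_sq hA
      smul_x₁ := fun c => tauQ_sq_smul_modX₁ hqM hA h1 hFk c
      smul_x₂ := fun c => tauQ_sq_smul_modX₂ hqM hA h1 hFk c
      smul_P₁ := ?_
      smul_P₂ := ?_ }
  · have := (k1 y).2 hy
    rw [resHom_apply, hres] at this
    exact this
  · have := (k2 y).2 hy
    rw [resHom_apply, hres] at this
    exact this
  · show arithmeticGalois (modularFunctionFieldFull (M * q)) (σ * σ) •
      polesOf (K := Qb) (Gin0.jF (M * q)) = _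
    rw [B3.smul_polesOf, Kum.galois_smul_jF]
    rfl
  · show arithmeticGalois (modularFunctionFieldFull (M * q)) (σ * σ) •
      zerosOf (K := Qb) (Gin0.jF (M * q) -
        algebraMap Qb (FBar (M * q)) ((((m : ℕ) : A) : A) : Qb)) = _
    rw [Kum.smul_zerosOf, smul_sub, Kum.galois_smul_jF, SemilinearAut.smul_algebraMap,
      baseAut_arithmeticGalois]
    have : ((σ * σ).toRingEquiv : Qb ≃+* Qb) ((((m : ℕ) : A) : A) : Qb) =
        ((((m : ℕ) : A) : A) : Qb) := by
      have h3 : ((((m : ℕ) : A) : A) : Qb) = ((m : ℕ) : Qb) := by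
        simp
      rw [h3]
      exact map_natCast (σ * σ).toRingEquiv m
    rw [this]
    rfl

end Main

end Fermat.Agent.LSc.Inst
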