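/-
LSc / Inst / Package  (helper4)

**The instance package of route FN** at a good pair `(M, q)` (`GoodPair M q`), for a valuation ring
`A ∣ q` of `ℚ̄` and a Frobenius lift `σ` at `A`: a nodal datum `D` on `FBar (M q)` with residue
curves `FRes A M`, `FRes A M`, with

* `NodalCtx D g gM gM`, hence helper6's Čech core,
* `D.V₁.O ≠ D.V₂.O`,
* `IsFrobenial D (arithmeticGalois σ²) (q²) τ² τ²`, `τ` = coefficientwise Frobenius of `FRes A M`,
* `D.V₁ = Val.gaussOne M q A hqM hA`, `D.V₂ = Unit.modD2 hqM D.V₁` (so that the restriction data of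
  helper7 / the norm relations of helper9 can be stated for `D.V₁`, `D.V₂`).
-/
import Fermat.Agent.LSc.Inst.FrobInst
import Fermat.Agent.LSb.Unit.Final

set_option autoImplicit false
set_option linter.unusedSectionVars false
set_option linter.unusedVariables false
set_option linter.style.haveILetI false

noncomputable section

namespace Fermat.Agent.LSc.Inst

open AlgebraicCurve ModularCurve HahnSeries Fermat.Agent.S18lib Fermat.Agent.ProgramR
open Fermat.Agent.LSb Fermat.Agent.LSb.Unit Fermat.Agent.S37lib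

local notation "Qb" => AlgebraicClosure ℚ

variable {M q : ℕ} [NeZero M] [NeZero q] [hq : Fact q.Prime]
variable {A : ValuationSubring (AlgebraicClosure ℚ)}

local notation "kA" => IsLocalRing.ResidueField A

/-- COUNT at a good pair, for the Gauss datum of record -/
theorem count_goodPair (hqM : ¬ q ∣ M) (hA : A.LiesOverPrime q) (hgood : GoodPair M q)
    {g gM : ℕ} (hF : IsCurveOfGenus Qb (FBar (M * q)) g)
    (hFk : IsCurveOfGenus kA (FRes A M) gM) :
    g + 1 ≤ gM + gM + modS (Val.gaussOne M q A hqM hA) := by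
  have h1 := Val.isGaussOne_gaussOne M q A hqM hA
  rcases hgood with h5 | ⟨hq2, h9⟩ | ⟨hq3, h4⟩
  · exact mod_count_five_le h5 hqM hA h1 hF hFk
  · subst hq2
    have := Count23.count_two h9 hqM hA h1 hF hFk
    convert this using 3
  · subst hq3
    have := Count23.count_three h4 hqM hA h1 hF hFk
    convert this using 3

section Main

variable [HasPrincipalDivisors (AlgebraicClosure ℚ) (FBar M)]
variable [HasPrincipalDivisors (AlgebraicClosure ℚ) (FBar (M * q))]
variable [HasPrincipalDivisors (IsLocalRing.ResidueField A) (FRes A M)]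

/-- **the instance package of route FN** -/
theorem exists_frobenial_package (hqM : ¬ q ∣ M) (hA : A.LiesOverPrime q) (hgood : GoodPair M q)
    {g gM : ℕ} (hF : IsCurveOfGenus Qb (FBar (M * q)) g)
    (hFk : IsCurveOfGenus kA (FRes A M) gM)
    {σ : Qb ≃ₐ[ℚ] Qb} (hσ : A.IsFrobeniusAt σ q) :
    ∃ D : NodalDatum A (FBar (M * q)) (FRes A M) (FRes A M),
      D.V₁ = Val.gaussOne M q A hqM hA ∧
      D.V₂ = modD2 hqM (Val.gaussOne M q A hqM hA) ∧
      NodalCtx D g gM gM ∧ CechCoreStatement D gM gM ∧ D.V₁.O ≠ D.V₂.O ∧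
      IsFrobenial D (arithmeticGalois (modularFunctionFieldFull (M * q)) (σ * σ)) (q ^ 2)
        (tauQ M hA * tauQ M hA) (tauQ M hA * tauQ M hA) := by
  set D1 := Val.gaussOne M q A hqM hA with hD1
  have h1 : Old.IsGaussOne D1 := Val.isGaussOne_gaussOne M q A hqM hA
  have h2 := isGaussTwo_modD2 hqM D1
  have hO1 : ∀ x ∈ D1.O, x ∈ V.gaussSubring (M * q) A :=
    fun x hx => Val.gaussOne_O_le M q A hqM hA hx
  obtain ⟨m, -, hm⟩ := exists_nat_goodConst hA h1
  have hwq : ∀ x, wqR M q hqM (wqR M q hqM x) = x := fun x => Val.wq_wq M q hq.out hqM x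
  have C : NodalCtx (modDatumC hA D1 (modD2 hqM D1) ((m : ℕ) : A)) g gM gM :=
    modNodalCtxC' hqM hA h1 hm hF hFk (count_goodPair hqM hA hgood hF hFk)
  exact ⟨modDatumC hA D1 (modD2 hqM D1) ((m : ℕ) : A), rfl, rfl, C, C.cechCoreStatement,
    Frame.O_ne hqM hA h1 h2 hwq, modDatumC_isFrobenial hqM hA h1 hO1 hFk hσ m⟩

end Main

end Fermat.Agent.LSc.Inst
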