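/-
LSc / Inst / FrobNewGood  (helper7)   — route FN (S35): FN at the good pairs

`frobNew_goodPair` : for a good pair `(M, q)` (`GoodPair M q`), `A ∣ q`, `σ` a Frobenius lift at `A`,
`n` prime to `q`, and `x ∈ Pic⁰ (FBar (M q))[n]` with `α_* x = 0`, `β_* x = 0`:

      `s (s x - x) = q² (s x - x)`,   `s = arithmeticGalois (σ²)`,

i.e. `(σ² - q²)(σ² - 1) x = 0`.  This is `LSc.frobNew_pic0` (helper8) fed with helper4's instance
package `exists_frobenial_package` and the degeneracy relations `hAlpha`, `hBeta` of `DegInst`.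
-/
import Mathlib
import Fermat.Agent.LSc.Core.FrobNew
import Fermat.Agent.LSc.Inst.Package
import Fermat.Agent.LSc.Inst.DegInst
import Fermat.Agent.LSb.Final.Tors

set_option autoImplicit false
set_option linter.unusedSectionVars false
set_option linter.unusedVariables false
set_option linter.style.haveILetI false

noncomputable section

namespace Fermat.Agent.LSc.Inst

open AlgebraicCurve ModularCurve Fermat.Agent.S18lib Fermat.Agent.LSb Fermat.Agent.LSb.Unit
open Fermat.Agent.LSc Fermat.Agent.S37lib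

local notation "Qb" => AlgebraicClosure ℚ

variable {M q : ℕ} [NeZero M] [NeZero q] [hq : Fact q.Prime]
variable {A : ValuationSubring (AlgebraicClosure ℚ)}

local notation "kA" => IsLocalRing.ResidueField A

/-- **FN at a good pair, on `Pic⁰`.** -/
theorem frobNew_goodPair [HasPrincipalDivisors Qb (FBar (M * q))]
    (hqM : ¬ q ∣ M) (hA : A.LiesOverPrime q) (hgood : GoodPair M q)
    {σ : Qb ≃ₐ[ℚ] Qb} (hσ : A.IsFrobeniusAt σ q) {n : ℕ} (hn : (n : kA) ≠ 0)
    (x : Pic0 Qb (FBar (M * q))) (hx : n • x = 0)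
    (hα : alphaPush M q x = 0) (hβ : betaPush M q x = 0) :
    arithmeticGalois (modularFunctionFieldFull (M * q)) (σ * σ) •
        (arithmeticGalois (modularFunctionFieldFull (M * q)) (σ * σ) • x - x) =
      ((q ^ 2 : ℕ) : ℤ) •
        (arithmeticGalois (modularFunctionFieldFull (M * q)) (σ * σ) • x - x) := by
  obtain ⟨g, hF, -⟩ := Gin0.exists_isCurveOfGenus_FBar (M * q)
  obtain ⟨gM, hFk⟩ := B3.exists_isCurveOfGenus_FRes (A := A) M hqM hA
  haveI : HasPrincipalDivisors Qb (FBar M) := HeckeInst.hasPrincipalDivisors_FB M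
  haveI : HasPrincipalDivisors kA (FRes A M) := hFk.hasPrincipalDivisors
  obtain ⟨D, hV₁, hV₂, C, hcech, hne, hs⟩ :=
    exists_frobenial_package hqM hA hgood hF hFk hσ
  have h1 : Old.IsGaussOne (Val.gaussOne M q A hqM hA) := Val.isGaussOne_gaussOne M q A hqM hA
  have h2 := isGaussTwo_modD2 hqM (Val.gaussOne M q A hqM hA)
  have hwq : ∀ y, wqR M q hqM (wqR M q hqM y) = y := fun y => Val.wq_wq M q hq.out hqM y
  have hroot : ∀ c : Qb, ∃ d : Qb, d ^ n = c := fun c =>
    IsAlgClosed.exists_pow_nat_eq c (Nat.pos_of_ne_zero (by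
      rintro rfl
      exact hn (by simp)))
  have hk : ∀ c : kA, c ≠ 0 → ∃ c' : kA, c' ≠ 0 ∧
      SemilinearAut.toRingAut (tauQ M hA) (algebraMap kA (FRes A M) c) =
        algebraMap kA (FRes A M) c' := fun c hc =>
    ⟨SemilinearAut.baseAut (tauQ M hA) c,
      (map_ne_zero_iff _ (SemilinearAut.baseAut (tauQ M hA)).injective).2 hc,
      SemilinearAut.smul_algebraMap (tauQ M hA) c⟩
  exact frobNew_pic0 C hcech hne hs (SemilinearAut.toRingAut (tauQ M hA))
    (SemilinearAut.toRingAut (tauQ M hA)) (fun y => rfl) (fun y => rfl) hk hk hn hroot x hx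
    (hAlpha hqM hA h1 h2 hwq D hV₁ hV₂ n x hα) (hBeta hqM hA h1 h2 hwq D hV₁ hV₂ n x hβ)

/-- **FN at a good pair, on the `p`-power torsion of `J₀(M q)(ℚ̄)`**, in the shape of lead's
`FrobKillAt`: `(s² - (1 + q²) s + q²) x = 0`, `s = σ²`. -/
theorem frobNew_goodPair_tors [HasPrincipalDivisors Qb (FBar (M * q))]
    (hqM : ¬ q ∣ M) (hA : A.LiesOverPrime q) (hgood : GoodPair M q)
    {σ : Qb ≃ₐ[ℚ] Qb} (hσ : A.IsFrobeniusAt σ q) {p : ℕ} (hp : p.Prime) (hqp : q ≠ p) (k : ℕ)
    (x : JZero (M * q))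
    (hx : x ∈ Submodule.torsionBy ℤ (JZero (M * q)) ((p ^ k : ℕ) : ℤ))
    (hα : alphaPush M q x = 0) (hβ : betaPush M q x = 0) :
    (σ * σ) • (σ * σ) • x - ((1 : ℤ) + (q : ℤ) ^ 2) • (σ * σ) • x + ((q : ℤ) ^ 2) • x = 0 := by
  have hx' : (p ^ k) • x = 0 := by
    have := (Submodule.mem_torsionBy_iff _ _).1 hx
    rwa [natCast_zsmul] at this
  have h := frobNew_goodPair hqM hA hgood hσ
    (natCast_pow_residue_ne_zero hA hp hq.out hqp k) x hx' hα hβ
  rw [← galois_smul_pic0_def] at h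
  rw [smul_sub] at h
  have h2 : (σ * σ) • (σ * σ) • x - (σ * σ) • x - ((q ^ 2 : ℕ) : ℤ) • ((σ * σ) • x - x) = 0 :=
    sub_eq_zero.2 h
  rw [← h2]
  generalize (σ * σ) • (σ * σ) • x = a
  generalize (σ * σ) • x = b
  push_cast
  module

end Fermat.Agent.LSc.Inst
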