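/-
LSc / Inst / NormBeta  (helper9)

The norm along `β` is the norm along `α` after applying the Atkin–Lehner involution:
`N_β f = N_α (w_q f)`  (`β = w_q ∘ α`, so `w_q` is an isomorphism of `FBar M`-algebras between
`FBar (M q)` with the `β`-structure and `FBar (M q)` with the `α`-structure).
Generic form first.
-/
import Fermat.Agent.LSb.Val.Wq
import Fermat.Agent.S29lib.D.KummerCorr

set_option autoImplicit false
set_option linter.style.haveILetI false

noncomputable section

namespace Fermat.Agent.LSc.Inst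

open AlgebraicCurve Fermat.Agent.S29lib.D

section Generic

variable {K F₀ F : Type*} [Field K] [Field F₀] [Field F] [Algebra K F₀] [Algebra K F]

/-- If `w : F ≃ F` intertwines the embeddings `φ` and `ψ` (`w ∘ φ = ψ`), then
`N_ψ (w f) = N_φ f`. -/
theorem normAlong_apply_equiv (φ ψ : F₀ →ₐ[K] F) (w : F ≃+* F)
    (h : ∀ y : F₀, w (φ y) = ψ y) (f : F) : normAlong ψ (w f) = normAlong φ f := by
  have key := @Algebra.norm_eq_of_equiv_equiv F₀ F F₀ F _ _ _ _ (algebraAlong φ) (algebraAlong ψ)
    (RingEquiv.refl F₀) w (by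
      ext y
      exact (h y).symm) f
  simpa [normAlong] using key.symm

end Generic

open ModularCurve Fermat.Agent.S18lib Fermat.Agent.LSb.Val
open Fermat.Agent.ProgramR Fermat.Agent.ProgramR.BarField

local notation "Qb" => AlgebraicClosure ℚ

variable (M q : ℕ) [NeZero M] [NeZero q] (hq : q.Prime) (hqM : ¬ q ∣ M)

/-- `N_β (w_q f) = N_α f`. -/
theorem normAlong_beta_wq (f : FBar (M * q)) :
    normAlong (heckeBetaBar Qb M q) (wq M q hq hqM f) = normAlong (heckeAlphaBar Qb M q) f :=
  normAlong_apply_equiv (heckeAlphaBar Qb M q) (heckeBetaBar Qb M q)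
    (wq M q hq hqM).toRingEquiv (fun y => wq_alpha M q hq hqM y) f

/-- `N_β f = N_α (w_q f)`. -/
theorem normAlong_beta_eq (f : FBar (M * q)) :
    normAlong (heckeBetaBar Qb M q) f = normAlong (heckeAlphaBar Qb M q) (wq M q hq hqM f) := by
  have := normAlong_apply_equiv (heckeBetaBar Qb M q) (heckeAlphaBar Qb M q)
    (wq M q hq hqM).toRingEquiv (fun y => wq_beta M q hq hqM y) f
  exact this.symm

/-- `N_α (w_q f) = N_β f`. -/
theorem normAlong_alpha_wq (f : FBar (M * q)) :
    normAlong (heckeAlphaBar Qb M q) (wq M q hq hqM f) = normAlong (heckeBetaBar Qb M q) f :=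
  (normAlong_beta_eq M q hq hqM f).symm

end Fermat.Agent.LSc.Inst
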