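/-
LSc / Inst / FrobNewTors  (helper7)   — route FN (S35): the J-level statement (FN), final form

`frobNewTors : q.Prime → ¬ q ∣ M → q ≠ p → p.Prime → S35lib.FrobNewTors M q p`  for ALL `M`:
up to a fixed integer `d ≠ 0`, for every `A ∣ q`, every Frobenius lift `σ` at `A` and every `q`-new
class `x ∈ J₀(M q)[p^k]` (`α_* x = 0 = β_* x`):   `d • (σ² - q²)(σ² - 1) x = 0`.

* `frobNewTors_of_goodPair` : `d = 1` at the good pairs, from `frobNew_goodPair_tors`
  (`FrobNewGood` = helper8's `frobNew_pic0` + helper4's instance package + `DegInst`);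
* `frobNewTors` : all pairs, by helper1's transfer `LSc/Xfer/Assemble.frobNewTors_of_special`.

Vocabulary (`pushAlpha`, `pushBeta`, `IsQNew`, `frobNewOp`, `FrobNewTors`) = helper8's
`S35lib/Interface.lean`; `S35lib.pushAlpha M q` and `alphaPush M q` of `DegInst` are
definitionally equal.
-/
import Mathlib
import Fermat.Agent.LSc.Inst.FrobNewGood
import Fermat.Agent.LSc.Xfer.Assemble
import Fermat.Agent.S35lib.Interface

set_option autoImplicit false
set_option linter.unusedSectionVars false
set_option linter.unusedVariables false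
set_option linter.style.haveILetI false

noncomputable section

namespace Fermat.Agent.LSc.Inst

open AlgebraicCurve ModularCurve Fermat.Agent.S18lib Fermat.Agent.LSb Fermat.Agent.LSc
open Fermat.Agent.S37lib

/-- **(FN) on torsion at a good pair, without defect** (`d = 1`). -/
theorem frobNewTors_of_goodPair {M q p : ℕ} [NeZero M] [NeZero q] (hq : q.Prime)
    (hqM : ¬ q ∣ M) (hqp : q ≠ p) (hp : p.Prime) (hgood : GoodPair M q) :
    S35lib.FrobNewTors M q p := by
  haveI : Fact q.Prime := ⟨hq⟩
  haveI : HasPrincipalDivisors (AlgebraicClosure ℚ) (FBar (M * q)) :=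
    HeckeInst.hasPrincipalDivisors_FB (M * q)
  refine ⟨1, one_ne_zero, ?_⟩
  intro A hA σ hσ k x hx hnew
  rw [S35lib.frobNewOp_eq, Nat.cast_one, one_smul]
  exact frobNew_goodPair_tors hqM hA hgood hσ hp hqp k x hx hnew.1 hnew.2

/-- **(FN) on torsion, at every pair `(M, q)`, `q ∤ M`** (helper8's `FrobNewTors`). -/
theorem frobNewTors {M q p : ℕ} [NeZero M] [NeZero q] (hq : q.Prime) (hqM : ¬ q ∣ M)
    (hqp : q ≠ p) (hp : p.Prime) : S35lib.FrobNewTors M q p :=
  Xfer.frobNewTors_of_special hp
    (fun M q _ _ hq hqM hqp hg => frobNewTors_of_goodPair hq hqM hqp hp hg) M q hq hqM hqp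

end Fermat.Agent.LSc.Inst
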