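/-
LSc / Inst / GoodConst  (helper4)

**A chart constant fixed by the whole Galois group**: some natural number `m < q` is a good chart
constant (`GoodConst hA D1 (m : A)`), i.e. its residue is not a value of `j̄ ^ q` at a node.

Reason: the nodes are zeros of `H₂ = P(j̄)` with `P` of degree `q - 1` (pole order of `H₂` at the
cusp), so at most `q - 1` elements of `k` are values of `j̄` at a node; the `q` residues
`0, 1, …, q - 1` are pairwise distinct and fixed by the `q`-th power map.
-/
import Fermat.Agent.LSc.Inst.CtxC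

set_option autoImplicit false
set_option linter.unusedSectionVars false
set_option linter.unusedVariables false

noncomputable section

namespace Fermat.Agent.LSc.Inst

open AlgebraicCurve ModularCurve HahnSeries Fermat.Agent.S18lib Fermat.Agent.ProgramR
open Fermat.Agent.LSb Fermat.Agent.LSb.Unit Fermat.Agent.S28lib

local notation "Qb" => AlgebraicClosure ℚ

variable {M q : ℕ} [NeZero M] [NeZero q] [hq : Fact q.Prime]
variable {A : ValuationSubring (AlgebraicClosure ℚ)}

local notation "kA" => IsLocalRing.ResidueField A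

/-- `H₂ = P(j̄)` with `P` of degree exactly `q - 1` -/
theorem exists_poly_H₂_natDegree (hA : A.LiesOverPrime q)
    {D1 : GaussDatum A (FBar (M * q)) (FRes A M)} (h1 : Old.IsGaussOne D1) :
    ∃ P : Polynomial kA, H₂ D1 = Polynomial.aeval (Gink.jK A M) P ∧ P ≠ 0 ∧
      P.natDegree = q - 1 := by
  have := Old.charP_kRes hA
  obtain ⟨P, hP⟩ := exists_poly_X0_char kA q hq.out (Gink.iotaA A)
  have hP0 : P ≠ 0 := by
    rintro rfl
    rw [map_zero] at hP
    have h3 := order_X0 kA q
    rw [hP, HahnSeries.order_zero] at h3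
    have : (2 : ℤ) ≤ q := by exact_mod_cast hq.out.two_le
    omega
  refine ⟨P, Subtype.ext ?_, hP0, ?_⟩
  · rw [coe_H₂ h1, Gink.coe_aeval_jK, hP]
    rfl
  · have h3 := order_X0 kA q
    have h4 : (evalJ kA (jqModC kA) P).order = -(P.natDegree : ℤ) := order_evalJ_jqModC hP0
    have h5 : X0 kA q = evalJ kA (jqModC kA) P := hP
    rw [h5, h4] at h3
    have : 1 ≤ q := hq.out.one_lt.le
    omega

/-- the value of `j̄` at a node is a root of `P` -/
theorem eval_eq_zero_of_node {D1 : GaussDatum A (FBar (M * q)) (FRes A M)}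
    {P : Polynomial kA} (hP : H₂ D1 = Polynomial.aeval (Gink.jK A M) P)
    {x' : Place kA (FRes A M)} (hx : x' ∈ modNodes D1) {d : kA}
    (hd : LSb.HasValueAt x' (Gink.jK A M) d) : P.eval d = 0 := by
  have h2 := Unit.HasValueAt.aeval hd P
  rw [← hP] at h2
  by_contra hne
  -- `H₂` has value `P(d) ≠ 0` and valuation `< 1`: impossible
  have h3 : x'.adicValuation (H₂ D1) < 1 := hx.2
  have h4 : x'.adicValuation (algebraMap kA (FRes A M) (P.eval d)) = 1 :=
    LSb.adicValuation_algebraMap_eq_one (Q := x') hne
  unfold LSb.HasValueAt at h2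
  have h5 : x'.adicValuation (algebraMap kA (FRes A M) (P.eval d)) < 1 := by
    have : algebraMap kA (FRes A M) (P.eval d) =
        H₂ D1 - (H₂ D1 - algebraMap kA (FRes A M) (P.eval d)) := by ring
    rw [this]
    exact lt_of_le_of_lt (Valuation.map_sub _ _ _) (max_lt h3 h2)
  rw [h4] at h5
  exact lt_irrefl _ h5

/-- **a natural number `m < q` is a good chart constant** -/
theorem exists_nat_goodConst (hA : A.LiesOverPrime q)
    {D1 : GaussDatum A (FBar (M * q)) (FRes A M)} (h1 : Old.IsGaussOne D1) :
    ∃ m : ℕ, m < q ∧ GoodConst hA D1 ((m : ℕ) : A) := by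
  classical
  have hchar := Old.charP_kRes hA
  obtain ⟨P, hP, hP0, hdeg⟩ := exists_poly_H₂_natDegree hA h1
  -- some `m < q` is not a root of `P`
  obtain ⟨m, hm, hroot⟩ : ∃ m : ℕ, m < q ∧ P.eval ((m : ℕ) : kA) ≠ 0 := by
    by_contra hcon
    push Not at hcon
    have hinj : Set.InjOn (fun m : ℕ => ((m : ℕ) : kA)) (Finset.range q : Set ℕ) := by
      intro a ha b hb hab
      have ha' : a < q := Finset.mem_range.1 ha
      have hb' : b < q := Finset.mem_range.1 hb
      have h1 := (CharP.natCast_eq_natCast kA q).1 hab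
      exact Nat.ModEq.eq_of_lt_of_lt h1 ha' hb'
    have hsub : (Finset.range q).image (fun m : ℕ => ((m : ℕ) : kA)) ⊆ P.roots.toFinset := by
      intro c hc
      obtain ⟨m, hm, rfl⟩ := Finset.mem_image.1 hc
      rw [Multiset.mem_toFinset, Polynomial.mem_roots hP0]
      exact hcon m (Finset.mem_range.1 hm)
    have hcard := Finset.card_le_card hsub
    rw [Finset.card_image_of_injOn hinj, Finset.card_range] at hcard
    have h2 : P.roots.toFinset.card ≤ P.natDegree :=
      (Multiset.toFinset_card_le _).trans (Polynomial.card_roots' P)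
    have : 1 ≤ q := hq.out.one_lt.le
    omega
  refine ⟨m, hm, fun x' hx hval => hroot ?_⟩
  have hres : IsLocalRing.residue A ((m : ℕ) : A) = ((m : ℕ) : kA) := map_natCast _ m
  rw [hres] at hval
  -- `j̄ ^ q - m = (j̄ - m) ^ q`
  have hpow : VqR hA (Gink.jK A M) - algebraMap kA (FRes A M) ((m : ℕ) : kA) =
      (Gink.jK A M - algebraMap kA (FRes A M) ((m : ℕ) : kA)) ^ q := by
    have : CharP (FRes A M) q := by
      have : ExpChar kA q := ExpChar.prime hq.out
      have hE : ExpChar (FRes A M) q := expChar_of_injective_algebraMap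
        (algebraMap kA (FRes A M)).injective q
      rcases hE with _ | ⟨hprime⟩
      · exact absurd hq.out Nat.not_prime_one
      · assumption
    rw [VqR_jK, sub_pow_char, map_natCast]
    congr 1
    have := map_natCast (frobenius (FRes A M) q) m
    rw [frobenius_def] at this
    exact this.symm
  apply eval_eq_zero_of_node hP hx
  unfold LSb.HasValueAt at hval ⊢
  rw [hpow, map_pow] at hval
  exact (pow_lt_one_iff (Nat.pos_of_ne_zero (NeZero.ne q)).ne').1 hval

end Fermat.Agent.LSc.Inst
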